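import Fermat.Agent.TwoAdic.MultOne.Galois
import Fermat.Agent.OrdinaryT.CoreTwo
import Fermat.Agent.Frobenius.Exists

/-!
# Multiplicity one modulo two at odd level

Let `M` be odd and `a` a system of eigenvalues in a field `k` of characteristic two for the full
Hecke algebra of level `M`, with `a₂ = 1` and `a_ℓ = tr r(Frob ℓ)` at almost all primes, `r`
dihedral of order six with `D ≡ 3 mod 8`. Then the eigenvectors of the matrices of `cohHecke` in
`k ^ d` form a space of dimension at most two.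

The logarithmic derivative of the reduced function has rank at most one on the eigenspace; its
kernel is fixed by a Frobenius at two by the core at two; and the fixed space is half the whole.
-/

set_option autoImplicit false

noncomputable section

open IsLocalRing AlgebraicCurve ModularCurve Matrix
open Fermat.Agent.Reduction Fermat.Agent.SemistableRed Fermat.Agent.OrdinaryT
open Fermat.Agent.HeckeJ0 Fermat.Agent.EigenRep Fermat.Agent.DefRing

namespace Fermat.Agent.TwoAdic.MultOne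

local notation "Ω" => AlgebraicClosure ℚ
local notation "G_ℚ" => (AlgebraicClosure ℚ) ≃ₐ[ℚ] (AlgebraicClosure ℚ)

section Local

variable {A : ValuationSubring Ω} {M : ℕ} [NeZero M] [Fact (2 : ℕ).Prime]
  [CharP (ResidueField A) 2] [IsAlgClosed (ResidueField A)] (S : Setting A M 2)
  {k : Type} [Field k] [CharP k 2] {a : Nat.Primes → k} {v : Fin (rk M) → k}

include S in
/-- An eigenvector with vanishing coefficients which is fixed by inertia is fixed by Frobenius. -/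
theorem galK_eq_self (hM : ¬ 2 ∣ M) (hv : v ∈ eigenSub (torsionHeckeModel M 2) (∅ : Set ℕ) a)
    (h2 : a ⟨2, Nat.prime_two⟩ = 1) (ℓ₀ : ℕ) [Fact ℓ₀.Prime] [NeZero ℓ₀] (hℓ₀ : ¬ ℓ₀ ∣ 2 * M)
    (ha₀ : a ⟨ℓ₀, Fact.out⟩ = 1) (hI : ∀ τ ∈ A.inertiaSubgroupIn ℚ, galK τ *ᵥ v = v)
    (hΦ : ∀ n : ℤ, n ≠ 0 → ∀ g, pairing (coeffFun S n g) v = 0)
    {φ : G_ℚ} (hφ : A.IsFrobeniusAt φ 2) : galK φ *ᵥ v = v := by
  have : NeZero (2 : ℕ) := ⟨two_ne_zero⟩
  have hℓ2 : ℓ₀ ≠ 2 := fun h => hℓ₀ (h ▸ dvd_mul_right 2 M)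
  have hℓM : ¬ ℓ₀ ∣ M := fun h => hℓ₀ (h.mul_left 2)
  let E : Set (Matrix (Fin (rk M)) (Fin (rk M)) (ZMod 2)) :=
    {X | (∃ τ ∈ A.inertiaSubgroupIn ℚ, X = galMatTwo τ) ∨
      X = (heckeMat M 2).map (Int.cast : ℤ → ZMod 2) ∨
      X = (heckeMat M ℓ₀).map (Int.cast : ℤ → ZMod 2)}
  let R : Set (Fin (rk M) → ZMod 2) :=
    {s | (∃ n : ℤ, n ≠ 0 ∧ ∃ g, s = rowOf (coeffFun S n g)) ∨ ∃ X ∈ E, ∃ i, s = (X - 1) i}
  have hEv : ∀ X ∈ E, X.map (castTwo k) *ᵥ v = v := by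
    rintro X (⟨τ, hτ, rfl⟩ | rfl | rfl)
    · exact hI τ hτ
    · rw [map_intCast_two, mulVec_of_mem hv 2, h2, one_smul]
    · rw [map_intCast_two, mulVec_of_mem hv ℓ₀, ha₀, one_smul]
  have hrow : ∀ x : Fin (rk M) → ZMod 2, (∀ s ∈ R, s ⬝ᵥ x = 0) → galMatTwo φ *ᵥ x = x := by
    intro x₀ hx
    obtain ⟨x, rfl⟩ := (coord M).surjective x₀
    have hfix : ∀ X ∈ E, X *ᵥ coord M x = coord M x := fun X hX => funext fun i => by
      have h := hx ((X - 1) i) (Or.inr ⟨X, hX, i, rfl⟩)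
      have h' : ((X - 1) *ᵥ coord M x) i = 0 := h
      rwa [sub_mulVec, one_mulVec, Pi.sub_apply, sub_eq_zero] at h'
    have h1 : ∀ τ ∈ A.inertiaSubgroupIn ℚ, τ • (x : JZero M) = x := fun τ hτ => by
      have h := hfix _ (Or.inl ⟨τ, hτ, rfl⟩)
      rw [galMatTwo_mulVec] at h
      exact congrArg Subtype.val ((coord M).injective h)
    have hT2 : heckeOperatorAlong Ω M 2 (x : JZero M) = x := by
      have h := hfix _ (Or.inr (Or.inl rfl))
      rw [← coord_heckeTors2 2 hM] at h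
      exact congrArg Subtype.val ((coord M).injective h)
    have hT : heckeTors2 ℓ₀ x = x := by
      have h := hfix _ (Or.inr (Or.inr rfl))
      rw [← coord_heckeTors2 ℓ₀ hℓM] at h
      exact (coord M).injective h
    have hco : ∀ n : ℤ, n ≠ 0 → (dlogHom S x).coeff n = 0 := fun n hn => by
      by_contra hc
      have : Fact (Nat.Prime 2) := ⟨Nat.prime_two⟩
      let : Algebra (ZMod 2) (ResidueField A) := ZMod.algebra _ 2
      obtain ⟨l, hl, -⟩ := Submodule.exists_dual_map_eq_bot_of_notMem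
        (show (dlogHom S x).coeff n ∉ (⊥ : Submodule (ZMod 2) (ResidueField A)) by simpa using hc)
        inferInstance
      refine hl ?_
      have h := hx (rowOf (coeffFun S n l.toAddMonoidHom)) (Or.inl ⟨n, hn, _, rfl⟩)
      rwa [rowOf_dot, coeffFun_apply] at h
    obtain ⟨ψ, hψ, hψn⟩ := (isDlog_dlogHom S x).hecke hℓM hℓ2
    have h0 : (dlogHom S x).coeff 0 = 0 := by
      have e : dlogHom S x = ψ := by rw [← dlogHom_eq S (x := heckeTors2 ℓ₀ x) hψ, hT]
      have h := hψn 0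
      have hq : (qExpand (ResidueField A) ℓ₀ (dlogHom S x)).coeff 0 = (dlogHom S x).coeff 0 := by
        simpa using qExpand_coeff_mul (R := ResidueField A) ℓ₀ (dlogHom S x) 0
      rwa [hq, mul_zero, CharTwo.add_self_eq_zero, ← e] at h
    have hz : dlogHom S x = 0 := HahnSeries.ext (funext fun n => by
      rw [HahnSeries.coeff_zero]
      rcases eq_or_ne n 0 with rfl | hn
      · exact h0
      · exact hco n hn)
    have hk : (x : JZero M) ∈ goodKilled S 2 :=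
      (hz ▸ isDlog_dlogHom S x : IsDlog A (x : JZero M) 0).mem_goodKilled S
    have hfx := frobenius_smul_eq_of_mem_goodKilled S hk h1 hT2 hφ
    rw [galMatTwo_mulVec, show galTors2 φ x = x from Subtype.ext hfx]
  refine funext fun i => ?_
  have key := dot_eq_zero_of_rows (castTwo k) R ((galMatTwo φ - 1) i) (fun x hx => by
    show ((galMatTwo φ - 1) *ᵥ x) i = 0
    rw [sub_mulVec, one_mulVec, hrow x hx, sub_self, Pi.zero_apply]) v ?_
  · have h : ((galMatTwo φ - 1).map (castTwo k) *ᵥ v) i = 0 := key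
    rwa [Matrix.map_sub _ (map_sub (castTwo k)), Matrix.map_one _ (map_zero _) (map_one _),
      sub_mulVec, one_mulVec, Pi.sub_apply, sub_eq_zero] at h
  · rintro s (⟨n, hn, g, rfl⟩ | ⟨X, hX, j, rfl⟩)
    · exact hΦ n hn g
    · show ((X - 1).map (castTwo k) *ᵥ v) j = 0
      rw [Matrix.map_sub _ (map_sub (castTwo k)), Matrix.map_one _ (map_zero _) (map_one _),
        sub_mulVec, one_mulVec, hEv X hX, sub_self, Pi.zero_apply]

/-- The linear form of the first coefficient. -/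
def firstCoeff (g₀ : ResidueField A →+ ZMod 2) : (Fin (rk M) → k) →ₗ[k] k where
  toFun v := pairing (coeffFun S 1 g₀) v
  map_add' v w := dotProduct_add _ v w
  map_smul' c _ := pairing_smul _ c

end Local

variable {M : ℕ} [NeZero M] {k : Type} [Field k] [CharP k 2]

/-- The eigenvectors, as a subspace of `k ^ rk M`. -/
def eigenSpc (a : Nat.Primes → k) : Submodule k (Fin (rk M) → k) :=
  eigenSub (torsionHeckeModel M 2) (∅ : Set ℕ) a

theorem eigenSpc_stable (a : Nat.Primes → k) (g : G_ℚ) (v : Fin (rk M) → k)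
    (hv : v ∈ eigenSpc (M := M) a) : Matrix.toLin' (galK g) v ∈ eigenSpc a := by
  rw [Matrix.toLin'_apply]; exact galK_mem g hv

/-- Galois on an eigenspace. -/
def eigenRep (a : Nat.Primes → k) : G_ℚ →* Module.End k (eigenSpc (M := M) a) where
  toFun g := (Matrix.toLin' (galK g)).restrict (eigenSpc_stable a g)
  map_one' := LinearMap.ext fun v => Subtype.ext (by
    show Matrix.toLin' (galK 1) (v : Fin (rk M) → k) = v
    rw [galK_one, Matrix.toLin'_one]; rfl)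
  map_mul' g h := LinearMap.ext fun v => Subtype.ext (by
    show Matrix.toLin' (galK (g * h)) (v : Fin (rk M) → k) =
      Matrix.toLin' (galK g) (Matrix.toLin' (galK h) (v : Fin (rk M) → k))
    rw [galK_mul, Matrix.toLin'_mul]; rfl)

theorem coe_eigenRep (a : Nat.Primes → k) (g : G_ℚ) (v : eigenSpc (M := M) a) :
    ((eigenRep a g v : eigenSpc (M := M) a) : Fin (rk M) → k) = galK g *ᵥ (v : Fin (rk M) → k) :=
  rfl

/-- **Multiplicity one modulo two at odd level**, with the exact dimension. -/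
theorem finrank_eigenSub (hM : ¬ 2 ∣ M) {D : ℕ} {r : MRep k} (hr : IsDihedralResidual D r)
    (hc : IsCont r) (hD8 : D % 8 = 3) (S : Finset ℕ) (a : Nat.Primes → k)
    (h2 : a ⟨2, Nat.prime_two⟩ = 1)
    (ha : ∀ (ℓ : ℕ) (hℓ : ℓ.Prime), ℓ ∉ S → ¬ ℓ ∣ 2 * M → ∀ P : ValuationSubring Ω,
      P.LiesOverPrime ℓ → ∀ σ : G_ℚ, P.IsFrobeniusAt σ ℓ → a ⟨ℓ, hℓ⟩ = (r σ).trace) :
    Module.finrank k (eigenSub (torsionHeckeModel M 2) (∅ : Set ℕ) a) ≤ 2 ∧
      ((∃ v ∈ eigenSub (torsionHeckeModel M 2) (∅ : Set ℕ) a, v ≠ 0) →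
        Module.finrank k (eigenSub (torsionHeckeModel M 2) (∅ : Set ℕ) a) = 2) := by
  have : Fact (2 : ℕ).Prime := ⟨Nat.prime_two⟩
  have : NeZero (2 : ℕ) := ⟨two_ne_zero⟩
  obtain ⟨A, hA⟩ := Frobenius.exists_liesOverPrime Ω Nat.prime_two
  have := charP_residueField hA
  have : IsAlgClosed (ResidueField A) := isAlgClosed_residueField
  let T : Setting A M 2 := ⟨hM, hA, goodReductionFacts M 2 hM A hA⟩
  obtain ⟨φ, hφ⟩ := Frobenius.exists_isFrobeniusAt_qbar Nat.prime_two hA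
  have hD0 : 0 < D := by omega
  have hD2 : ¬ 2 ∣ D := by omega
  have hφT := Selmer.frobenius_two_transp hr hD8 hA hφ
  obtain ⟨h, hh, hh1⟩ := Selmer.exists_order_three hr hD0
  have hφh : Selmer.IsTransp r (φ * h) := by rw [Selmer.transp_mul_iff hr]; tauto
  let ρ := eigenRep (M := M) a
  have hrel : ∀ g, ρ g * ρ g + (r g).trace • ρ g + 1 = 0 := fun g =>
    LinearMap.ext fun v => Subtype.ext (galK_relation r hc S a ha g v.2)
  have h0 : ∀ g, (r g).trace = 0 → ρ g * ρ g = 1 := fun g hg => by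
    have h := hrel g
    rw [hg, zero_smul, add_zero] at h
    calc ρ g * ρ g = ρ g * ρ g + ((1 : Module.End k (eigenSpc (M := M) a)) + 1) := by
          rw [show (1 : Module.End k (eigenSpc (M := M) a)) + 1 = 0 from
            LinearMap.ext fun v => vec_add_self (k := k) v, add_zero]
      _ = 1 := by rw [← add_assoc, h, zero_add]
  have h1 : ∀ g, (r g).trace = 1 → ρ g * ρ g + ρ g + 1 = 0 := fun g hg => by
    have h := hrel g
    rwa [hg, one_smul] at h
  have h3 : ∀ g, (r g).trace = 1 → ρ g * ρ g * ρ g = 1 := fun g hg => by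
    have h := h1 g hg
    refine LinearMap.ext fun v => ?_
    have e : ∀ w, ρ g (ρ g w) + ρ g w + w = 0 := fun w => LinearMap.congr_fun h w
    have e1 := e (ρ g v)
    have e2 := e v
    show ρ g (ρ g (ρ g v)) = v
    rw [← sub_eq_zero]
    calc ρ g (ρ g (ρ g v)) - v
        = (ρ g (ρ g (ρ g v)) + ρ g (ρ g v) + ρ g v) - (ρ g (ρ g v) + ρ g v + v) := by abel
      _ = 0 := by rw [e1, e2, sub_zero]
  have htr1 : (r h).trace = 1 := Selmer.trace_eq_one hr hD0 hh hh1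
  have hτ : ∀ τ ∈ A.inertiaSubgroupIn ℚ, ρ τ = 1 := fun τ hτ => by
    have hrτ : r τ = 1 := hr.unramified 2 Nat.prime_two hD2 A hA τ hτ
    refine eq_one_of_relations (φ := ρ φ) (ψ := ρ (φ * h)) (h := ρ h) ?_ (h0 _ hφT.1) (h0 _ hφh.1)
      (h0 _ (by rw [hrτ, Matrix.trace_one, Fintype.card_fin]; exact CharTwo.two_eq_zero)) ?_ ?_
      (h3 _ htr1) ?_
    · rw [map_mul, ← mul_assoc, h0 _ hφT.1, one_mul]
    · rw [← map_mul ρ φ τ]; exact h0 _ (by rw [map_mul, hrτ, mul_one]; exact hφT.1)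
    · rw [← map_mul ρ (φ * h) τ]; exact h0 _ (by rw [map_mul, hrτ, mul_one]; exact hφh.1)
    · rw [← map_mul ρ h τ]; exact h3 _ (by rw [map_mul, hrτ, mul_one]; exact htr1)
  obtain ⟨ℓ₀, hℓ₀, hℓ₀S, hℓ₀M, P, hP, σ, hσ, -, hrσ⟩ := exists_frobenius_eq (M := M) r hc h S
  have : Fact ℓ₀.Prime := ⟨hℓ₀⟩
  have : NeZero ℓ₀ := ⟨hℓ₀.ne_zero⟩
  have ha₀ : a ⟨ℓ₀, Fact.out⟩ = 1 := by
    rw [← htr1, hrσ]; exact ha ℓ₀ hℓ₀ hℓ₀S hℓ₀M P hP σ hσ
  obtain ⟨g₀, -, hg₀⟩ := exists_functional (κ := ResidueField A)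
  let c := (firstCoeff T g₀ (k := k)).comp (eigenSpc (M := M) a).subtype
  have hcφ : ∀ v, c v = 0 → ρ φ v = v := fun v hv => Subtype.ext
    (galK_eq_self T hM v.2 h2 ℓ₀ hℓ₀M ha₀
      (fun τ ht => (coe_eigenRep a τ v).symm.trans (congrArg Subtype.val
        (LinearMap.congr_fun (hτ τ ht) v)))
      (pairing_coeffFun_eq_zero T hM v.2 h2 hg₀ hv) hφ)
  have hφh2 : ρ φ * ρ h * (ρ φ * ρ h) = 1 := by rw [← map_mul]; exact h0 _ hφh.1
  refine ⟨finrank_le_two (ρ φ) (ρ h) (h0 _ hφT.1) (h1 _ htr1) hφh2 c hcφ, fun ⟨v, hv, hv0⟩ => ?_⟩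
  have : Nontrivial (eigenSpc (M := M) a) :=
    ⟨⟨v, hv⟩, 0, fun e => hv0 (congrArg Subtype.val e)⟩
  change Module.finrank k (eigenSpc (M := M) a) = 2
  exact finrank_eq_two (ρ φ) (ρ h) (h0 _ hφT.1) (h1 _ htr1) hφh2 c hcφ

/-- At most two. -/
theorem finrank_eigenSub_le_two (hM : ¬ 2 ∣ M) {D : ℕ} {r : MRep k} (hr : IsDihedralResidual D r)
    (hc : IsCont r) (hD8 : D % 8 = 3) (S : Finset ℕ) (a : Nat.Primes → k)
    (h2 : a ⟨2, Nat.prime_two⟩ = 1)
    (ha : ∀ (ℓ : ℕ) (hℓ : ℓ.Prime), ℓ ∉ S → ¬ ℓ ∣ 2 * M → ∀ P : ValuationSubring Ω,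
      P.LiesOverPrime ℓ → ∀ σ : G_ℚ, P.IsFrobeniusAt σ ℓ → a ⟨ℓ, hℓ⟩ = (r σ).trace) :
    Module.finrank k (eigenSub (torsionHeckeModel M 2) (∅ : Set ℕ) a) ≤ 2 :=
  (finrank_eigenSub hM hr hc hD8 S a h2 ha).1

end Fermat.Agent.TwoAdic.MultOne
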