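import Mathlib.LinearAlgebra.Dimension.RankNullity
import Mathlib.LinearAlgebra.FiniteDimensional.Lemmas
import Mathlib.LinearAlgebra.Dual.Lemmas
import Mathlib.FieldTheory.IsAlgClosed.Basic
import Mathlib.Algebra.CharP.Two
import Mathlib.Algebra.Algebra.ZMod
import Mathlib.Algebra.Field.ZMod
import Mathlib.LinearAlgebra.FreeModule.Basic
import Mathlib.LinearAlgebra.Matrix.DotProduct

/-!
# Linear algebra for multiplicity one

* An involution `φ` and an element `h` with `h² + h + 1 = 0`, `(φ h)² = 1` have fixed space of
  half the dimension; if the fixed space contains a hyperplane the dimension is at most two.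
* Row relations over a field extend to any larger field.
* Additive functionals of an algebraically closed field of characteristic two modulo `g ∘ F - g`.
-/

set_option autoImplicit false

namespace Fermat.Agent.TwoAdic.MultOne

section Dim

variable {k V : Type*} [Field k] [CharP k 2] [AddCommGroup V] [Module k V]

omit [CharP k 2] in
/-- In characteristic two a vector is its own negative. -/
theorem vec_add_self [CharP k 2] (v : V) : v + v = 0 := by
  rw [← two_smul k v, CharTwo.two_eq_zero, zero_smul]

/-- The involution `φ` fixes exactly the image of `φ + 1`. -/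
theorem range_add_one_eq_ker (φ h : Module.End k V) (hφ : φ * φ = 1) (hh : h * h + h + 1 = 0)
    (hφh : φ * h * (φ * h) = 1) : LinearMap.range (φ + 1) = LinearMap.ker (φ + 1) := by
  refine le_antisymm ?_ fun y hy => ⟨h y, ?_⟩
  · rintro _ ⟨v, rfl⟩
    have h1 : φ (φ v) = v := LinearMap.congr_fun hφ v
    simp only [LinearMap.mem_ker, LinearMap.add_apply, Module.End.one_apply, map_add, h1]
    rw [add_comm (φ v) v, vec_add_self (k := k)]
  · have hy' : φ y = y := by
      simp only [LinearMap.mem_ker, LinearMap.add_apply, Module.End.one_apply] at hy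
      calc φ y = φ y + (y + y) := by rw [vec_add_self (k := k), add_zero]
        _ = y := by rw [← add_assoc, hy, zero_add]
    have h2 : ∀ v, h (h v) + h v + v = 0 := fun v => LinearMap.congr_fun hh v
    have h3 : ∀ v, h (h (h v)) = v := fun v => by
      have e1 := h2 v
      have e2 := congrArg h e1
      rw [map_add, map_add, map_zero] at e2
      calc h (h (h v)) = h (h (h v)) + ((h (h v) + h v + v) + (h (h (h v)) + h (h v) + h v)) := by
            rw [e1, e2, add_zero, add_zero]
        _ = (h (h (h v)) + h (h (h v))) + (h (h v) + h (h v)) + (h v + h v) + v := by abel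
        _ = v := by simp [vec_add_self (k := k)]
    have h4 : φ (h y) = h (h y) := by
      have e : φ (h (φ (h (h (h y))))) = h (h y) := LinearMap.congr_fun hφh (h (h y))
      rwa [h3, hy'] at e
    show φ (h y) + h y = y
    rw [h4]
    calc h (h y) + h y = h (h y) + h y + (y + y) := by rw [vec_add_self (k := k), add_zero]
      _ = y := by rw [← add_assoc, h2, zero_add]

variable [FiniteDimensional k V]

/-- If the fixed space of the involution contains a hyperplane, the dimension is at most two. -/
theorem finrank_le_two (φ h : Module.End k V) (hφ : φ * φ = 1) (hh : h * h + h + 1 = 0)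
    (hφh : φ * h * (φ * h) = 1) (c : V →ₗ[k] k) (hc : ∀ v, c v = 0 → φ v = v) :
    Module.finrank k V ≤ 2 := by
  have h1 := LinearMap.finrank_range_add_finrank_ker (φ + 1)
  rw [range_add_one_eq_ker φ h hφ hh hφh] at h1
  have h2 := LinearMap.finrank_range_add_finrank_ker c
  have h3 : Module.finrank k (LinearMap.range c) ≤ 1 :=
    (Submodule.finrank_le _).trans (Module.finrank_self k).le
  have h4 : LinearMap.ker c ≤ LinearMap.ker (φ + 1) := fun v hv => by
    simp only [LinearMap.mem_ker, LinearMap.add_apply, Module.End.one_apply]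
    rw [hc v hv, vec_add_self (k := k)]
  have h5 := Submodule.finrank_mono h4
  omega

/-- The dimension is even, so a nonzero such space has dimension two. -/
theorem finrank_eq_two (φ h : Module.End k V) (hφ : φ * φ = 1) (hh : h * h + h + 1 = 0)
    (hφh : φ * h * (φ * h) = 1) (c : V →ₗ[k] k) (hc : ∀ v, c v = 0 → φ v = v) [Nontrivial V] :
    Module.finrank k V = 2 := by
  have h1 := LinearMap.finrank_range_add_finrank_ker (φ + 1)
  rw [range_add_one_eq_ker φ h hφ hh hφh] at h1
  have h2 := finrank_le_two φ h hφ hh hφh c hc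
  have h3 : 0 < Module.finrank k V := Module.finrank_pos
  omega

end Dim

section Monoid

/-- An element of order two commuting with two involutions, whose product with an element of order
three has order three, is trivial. -/
theorem eq_one_of_relations {G : Type*} [Monoid G] {φ ψ h τ : G} (hh : h = φ * ψ)
    (hφ : φ * φ = 1) (hψ : ψ * ψ = 1) (hτ : τ * τ = 1) (hφτ : φ * τ * (φ * τ) = 1)
    (hψτ : ψ * τ * (ψ * τ) = 1) (hh3 : h * h * h = 1)
    (hhτ : h * τ * (h * τ) * (h * τ) = 1) : τ = 1 := by
  have key : ∀ a : G, a * a = 1 → a * τ * (a * τ) = 1 → a * τ = τ * a := by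
    intro a ha hat
    calc a * τ = a * τ * (a * τ * (τ * a)) := by
          rw [mul_assoc a τ (τ * a), ← mul_assoc τ τ a, hτ, one_mul, ha, mul_one]
      _ = τ * a := by rw [← mul_assoc, hat, one_mul]
  have hc : Commute h τ := by
    rw [hh]
    exact Commute.mul_left (key φ hφ hφτ) (key ψ hψ hψτ)
  have h1 : (h * τ) ^ 3 = h ^ 3 * τ ^ 3 := hc.mul_pow 3
  rw [pow_three', pow_three', pow_three', hhτ, hh3, one_mul, hτ, one_mul] at h1
  exact h1.symm

end Monoid

section Rows

variable {ι F k : Type*} [Fintype ι] [DecidableEq ι] [Field F] [Field k]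

/-- A row killing the common kernel of a set of rows does so over every larger field. -/
theorem dot_eq_zero_of_rows (f : F →+* k) (R : Set (ι → F)) (r : ι → F)
    (h : ∀ x : ι → F, (∀ s ∈ R, s ⬝ᵥ x = 0) → r ⬝ᵥ x = 0) (v : ι → k)
    (hv : ∀ s ∈ R, (f ∘ s) ⬝ᵥ v = 0) : (f ∘ r) ⬝ᵥ v = 0 := by
  have hr : r ∈ Submodule.span F R := by
    by_contra hr
    obtain ⟨l, hl, hlR⟩ := Submodule.exists_dual_map_eq_bot_of_notMem hr inferInstance
    have hl' : ∀ s : ι → F, l s = s ⬝ᵥ fun i => l (Pi.single i 1) := fun s => by
      conv_lhs => rw [pi_eq_sum_univ' s, map_sum]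
      exact Finset.sum_congr rfl fun i _ => by rw [map_smul, smul_eq_mul]
    refine hl ((hl' r).trans (h _ fun s hs => ?_))
    rw [← hl' s]
    have : l s ∈ (Submodule.span F R).map l := Submodule.mem_map_of_mem (Submodule.subset_span hs)
    rwa [hlR, Submodule.mem_bot] at this
  clear h
  induction hr using Submodule.span_induction with
  | mem s hs => exact hv s hs
  | zero =>
    rw [show (f ∘ (0 : ι → F)) = 0 from funext fun i => map_zero f, zero_dotProduct]
  | add s t _ _ hs ht =>
    rw [show (f ∘ (s + t)) = f ∘ s + f ∘ t from funext fun i => map_add f _ _, add_dotProduct, hs,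
      ht, add_zero]
  | smul a s _ hs =>
    rw [show (f ∘ (a • s)) = f a • (f ∘ s) from funext fun i => map_mul f _ _, smul_dotProduct, hs,
      smul_zero]

end Rows

section Additive

variable {κ : Type*} [Field κ] [CharP κ 2] [IsAlgClosed κ]

/-- Every additive functional on an algebraically closed field of characteristic two is a multiple
of a fixed one plus one of the form `f ∘ F + f`. -/
theorem exists_functional :
    ∃ g₀ : κ →+ ZMod 2, g₀ 1 = 1 ∧ ∀ g : κ →+ ZMod 2, ∃ f : κ →+ ZMod 2,
      ∀ x, g x = g 1 * g₀ x + (f (x ^ 2) + f x) := by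
  have : Fact (Nat.Prime 2) := ⟨Nat.prime_two⟩
  let : Algebra (ZMod 2) κ := ZMod.algebra κ 2
  obtain ⟨l, hl⟩ : ∃ l : κ →ₗ[ZMod 2] ZMod 2, l 1 = 1 := by
    obtain ⟨l, hl, -⟩ := Submodule.exists_dual_map_eq_bot_of_notMem
      (show (1 : κ) ∉ (⊥ : Submodule (ZMod 2) κ) by simp) inferInstance
    exact ⟨(l 1)⁻¹ • l, by rw [LinearMap.smul_apply, smul_eq_mul, inv_mul_cancel₀ hl]⟩
  refine ⟨l.toAddMonoidHom, hl, fun g => ?_⟩
  let P : κ →+ κ :=
    { toFun := fun x => x ^ 2 + x
      map_zero' := by simp
      map_add' := fun x y => by rw [CharTwo.add_sq]; ring }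
  have hP : Function.Surjective P := fun y => by
    obtain ⟨x, hx⟩ := IsAlgClosed.exists_root
      (Polynomial.X ^ 2 + Polynomial.X + Polynomial.C y : Polynomial κ) (by
        rw [show (Polynomial.X ^ 2 + Polynomial.X + Polynomial.C y : Polynomial κ).degree = 2 by
          compute_degree!]
        decide)
    refine ⟨x, ?_⟩
    simp only [Polynomial.IsRoot, Polynomial.eval_add, Polynomial.eval_pow, Polynomial.eval_X,
      Polynomial.eval_C] at hx
    show x ^ 2 + x = y
    rw [← sub_eq_zero, CharTwo.sub_eq_add, hx]
  let g' : κ →+ ZMod 2 := g - (AddMonoidHom.mulLeft (g 1)).comp l.toAddMonoidHom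
  have hker : P.ker ≤ g'.ker := fun x hx => by
    have hx' : x * (x + 1) = 0 := by
      rw [mul_add, mul_one, ← sq]; exact hx
    rcases mul_eq_zero.mp hx' with rfl | h1
    · exact map_zero g'
    · obtain rfl : x = 1 := by rw [← sub_eq_zero, CharTwo.sub_eq_add, h1]
      show g 1 - g 1 * l 1 = 0
      rw [hl, mul_one, sub_self]
  refine ⟨AddMonoidHom.liftOfRightInverse P _ (Function.rightInverse_surjInv hP) ⟨g', hker⟩,
    fun x => ?_⟩
  have h := AddMonoidHom.liftOfRightInverse_comp_apply P _ (Function.rightInverse_surjInv hP)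
    ⟨g', hker⟩ x
  rw [← map_add]
  refine (sub_eq_iff_eq_add'.mp ?_)
  exact h.symm

end Additive

end Fermat.Agent.TwoAdic.MultOne
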