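import Fermat.Agent.TwoAdic.MultOne.DualOp
import Fermat.Agent.HeckeJ0.TorsionModel
import Mathlib.LinearAlgebra.Matrix.ToLin

/-!
# Untwisted coordinates on `J₀(M)[2]`

In the coordinates of the monodromy (without the Fricke twist) the Galois group acts by matrices
over `𝔽₂`, and the matrix of `cohHecke ℓ` is the one of `T_ℓ` for `ℓ ∤ M`, of the transposed
operator for `ℓ ∣ M`.
-/

set_option autoImplicit false

noncomputable section

open CongruenceSubgroup
open scoped MatrixGroups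
open AlgebraicCurve ModularCurve
open Fermat.Agent.HeckeJ0

namespace Fermat.Agent.TwoAdic.MultOne

local notation "Ω" => AlgebraicClosure ℚ
local notation "G_ℚ" => (AlgebraicClosure ℚ) ≃ₐ[ℚ] (AlgebraicClosure ℚ)

variable (M : ℕ) [NeZero M]

/-- The two-torsion. -/
abbrev Tors2 : Type := Pic0.torsion Ω (modularFunctionFieldBar M) 2

/-- A two-torsion class is killed by two. -/
theorem Tors2.two_nsmul {M : ℕ} [NeZero M] (x : Tors2 M) : 2 • (x : JZero M) = 0 := by
  rw [← natCast_zsmul]; exact Pic0.mem_torsion.mp x.2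

/-- An element killed by two, as a torsion class. -/
def Tors2.mk {M : ℕ} [NeZero M] (x : JZero M) (hx : 2 • x = 0) : Tors2 M :=
  ⟨x, Pic0.mem_torsion.mpr (by rw [natCast_zsmul]; exact hx)⟩

/-- Coordinates of good homomorphisms. -/
def goodCoords : J0Torsion.goodHoms M (ZMod 2) ≃+ (Fin (rk M) → ZMod 2) where
  toFun ψ := coords M (ψ : Additive (Gamma0 M) →+ ZMod 2)
  invFun a := ⟨ofCoords M a, isGoodHom_ofCoords M a⟩
  left_inv ψ := Subtype.ext (ofCoords_coords_zmod M (parabolicFull M) 2 ψ.2)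
  right_inv a := coords_ofCoords M a
  map_add' ψ ψ' := by rw [AddSubgroup.coe_add, map_add]

/-- The coordinates. -/
def coord : Tors2 M ≃+ (Fin (rk M) → ZMod 2) :=
  (J0Torsion.torsionEquiv M 2).trans (goodCoords M)

variable {M}

/-- An operator whose monodromy is the transfer acts by the Hecke matrix. -/
theorem coord_eq_mulVec (ℓ : ℕ) [Fact ℓ.Prime] [NeZero ℓ] (x y : Tors2 M)
    (h : (J0Torsion.torsionEquiv M 2 y : Additive (Gamma0 M) →+ ZMod 2) =
      cohHecke ℓ (J0Torsion.torsionEquiv M 2 x : Additive (Gamma0 M) →+ ZMod 2)) :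
    coord M y = ((heckeMat M ℓ).map (Int.cast : ℤ → ZMod 2)).mulVec (coord M x) := by
  show coords M (J0Torsion.torsionEquiv M 2 y : Additive (Gamma0 M) →+ ZMod 2) = _
  rw [h, ← ofCoords_coords_zmod M (parabolicFull M) 2 (J0Torsion.torsionEquiv M 2 x).2,
    coords_cohHecke_ofCoords]
  rfl

/-- `T_ℓ` on two-torsion. -/
def heckeTors2 (ℓ : ℕ) [NeZero ℓ] (x : Tors2 M) : Tors2 M :=
  Tors2.mk (heckeOperatorAlong Ω M ℓ x) (by rw [← map_nsmul, x.two_nsmul, map_zero])

/-- The transposed operator on two-torsion. -/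
def dualTors2 (ℓ : ℕ) [NeZero ℓ] [Fact ℓ.Prime] (x : Tors2 M) : Tors2 M :=
  Tors2.mk (dualHecke M ℓ x) (nsmul_dualHecke M ℓ x.two_nsmul)

theorem coord_heckeTors2 (ℓ : ℕ) [Fact ℓ.Prime] [NeZero ℓ] (hℓ : ¬ ℓ ∣ M) (x : Tors2 M) :
    coord M (heckeTors2 ℓ x) =
      ((heckeMat M ℓ).map (Int.cast : ℤ → ZMod 2)).mulVec (coord M x) :=
  coord_eq_mulVec ℓ _ _ (monodromy_hecke_of_not_dvd J0Torsion.jEmb hℓ x.2
    (isMonodromy_torsionEquiv M 2 x) (isMonodromy_torsionEquiv M 2 (heckeTors2 ℓ x)))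

theorem coord_dualTors2 (ℓ : ℕ) [Fact ℓ.Prime] [NeZero ℓ] (hℓ : ℓ ∣ M) (x : Tors2 M) :
    coord M (dualTors2 ℓ x) =
      ((heckeMat M ℓ).map (Int.cast : ℤ → ZMod 2)).mulVec (coord M x) :=
  coord_eq_mulVec ℓ _ _ (monodromy_dualHecke J0Torsion.jEmb hℓ x.2
    (isMonodromy_torsionEquiv M 2 x) (isMonodromy_torsionEquiv M 2 (dualTors2 ℓ x)))

/-- Galois on two-torsion. -/
def galTors2 (g : G_ℚ) (x : Tors2 M) : Tors2 M :=
  Tors2.mk (g • (x : JZero M)) (by
    rw [show 2 • g • (x : JZero M) = g • (2 • (x : JZero M)) from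
      (map_nsmul (DistribSMul.toAddMonoidHom (JZero M) g) 2 (x : JZero M)).symm, x.two_nsmul]
    exact map_zero (DistribSMul.toAddMonoidHom (JZero M) g))

theorem galTors2_add (g : G_ℚ) (x y : Tors2 M) :
    galTors2 g (x + y) = galTors2 g x + galTors2 g y :=
  Subtype.ext (smul_add g (x : JZero M) y)

/-- The matrix of Galois. -/
def galMatTwo (g : G_ℚ) : Matrix (Fin (rk M)) (Fin (rk M)) (ZMod 2) :=
  LinearMap.toMatrix' (AddMonoidHom.toZModLinearMap 2
    ((coord M).toAddMonoidHom.comp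
      ((AddMonoidHom.mk' (galTors2 g) (galTors2_add g)).comp (coord M).symm.toAddMonoidHom)))

theorem galMatTwo_mulVec (g : G_ℚ) (x : Tors2 M) :
    (galMatTwo g).mulVec (coord M x) = coord M (galTors2 g x) := by
  rw [galMatTwo, LinearMap.toMatrix'_mulVec]
  simp

theorem matrix_ext {X Y : Matrix (Fin (rk M)) (Fin (rk M)) (ZMod 2)}
    (h : ∀ x : Tors2 M, X.mulVec (coord M x) = Y.mulVec (coord M x)) : X = Y :=
  Matrix.ext_of_mulVec_single fun i => by
    have := h ((coord M).symm (Pi.single i 1))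
    rwa [AddEquiv.apply_symm_apply] at this

theorem galMatTwo_one : galMatTwo (1 : G_ℚ) = (1 : Matrix (Fin (rk M)) (Fin (rk M)) (ZMod 2)) :=
  matrix_ext fun x => by
    rw [galMatTwo_mulVec, Matrix.one_mulVec,
      show galTors2 1 x = x from Subtype.ext (one_smul _ (x : JZero M))]

theorem galMatTwo_mul (g h : G_ℚ) :
    galMatTwo (M := M) (g * h) = galMatTwo g * galMatTwo h :=
  matrix_ext fun x => by
    rw [galMatTwo_mulVec, ← Matrix.mulVec_mulVec, galMatTwo_mulVec, galMatTwo_mulVec,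
      show galTors2 (g * h) x = galTors2 g (galTors2 h x) from
        Subtype.ext (mul_smul g h (x : JZero M))]

/-- The row of an additive functional. -/
def rowOf (F : Tors2 M →+ ZMod 2) : Fin (rk M) → ZMod 2 := fun i =>
  F ((coord M).symm (Pi.single i 1))

theorem rowOf_dot (F : Tors2 M →+ ZMod 2) (x : Tors2 M) : dotProduct (rowOf F) (coord M x) = F x := by
  have h := LinearMap.toMatrix'_mulVec
    ((LinearMap.single (ZMod 2) (fun _ : Unit => ZMod 2) ()).comp
      (AddMonoidHom.toZModLinearMap 2 (F.comp (coord M).symm.toAddMonoidHom))) (coord M x)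
  have h' := congrFun h ()
  unfold rowOf
  simpa [Matrix.mulVec, LinearMap.toMatrix'_apply] using h'

end Fermat.Agent.TwoAdic.MultOne
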