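import Fermat.Agent.LevelP.Theta
import Fermat.Agent.Congruence.Laurent
import Fermat.Agent.Congruence.Norm

/-!
# Logarithmic derivatives in characteristic two

`φ = θ v / v` has no negative coefficients and satisfies `φ (2 m) = φ m ^ 2`; the product formulas
of the Hecke correspondences turn into the usual formulas on coefficients.
-/

set_option autoImplicit false

noncomputable section

open ModularCurve
open Fermat.Agent.LevelP

namespace Fermat.Agent.TwoAdic.MultOne

variable {K : Type*} [Field K] [CharP K 2]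

omit [CharP K 2] in
theorem theta_twist (c : Kˣ) (x : LaurentSeries K) :
    theta (Congruence.twist c x) = Congruence.twist c (theta x) := by
  ext n
  rw [theta_coeff, Congruence.twist_coeff, Congruence.twist_coeff, theta_coeff, mul_left_comm]

omit [CharP K 2] in
theorem dlogS_twist (c : Kˣ) (x : LaurentSeries K) :
    dlogS (Congruence.twist c x) = Congruence.twist c (dlogS x) := by
  rw [dlogS, theta_twist, ← map_div₀, dlogS]

theorem theta_theta (x : LaurentSeries K) : theta (theta x) = theta x := by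
  ext n
  rw [theta_coeff, theta_coeff, ← mul_assoc]
  rcases Int.even_or_odd n with ⟨m, rfl⟩ | ⟨m, rfl⟩ <;> push_cast <;>
    simp [CharTwo.add_self_eq_zero, CharTwo.two_eq_zero]

omit [CharP K 2] in
theorem dlogS_coeff_neg (v : LaurentSeries K) {n : ℤ} (hn : n < 0) : (dlogS v).coeff n = 0 := by
  rcases eq_or_ne (theta v) 0 with h | h
  · rw [dlogS, h, zero_div, HahnSeries.coeff_zero]
  have hv : v ≠ 0 := fun h0 => h (by rw [h0, map_zero])
  refine HahnSeries.coeff_eq_zero_of_lt_order (hn.trans_le ?_)
  have h1 : v.order ≤ (theta v).order :=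
    HahnSeries.order_le_of_coeff_ne_zero (x := v) (g := (theta v).order) fun h0 => by
      have h2 := mt HahnSeries.coeff_order_eq_zero.mp h
      rw [theta_coeff, h0, mul_zero] at h2
      exact h2 rfl
  have h3 : dlogS v * v = theta v := div_mul_cancel₀ _ hv
  have h4 : dlogS v ≠ 0 := fun h0 => h (by rw [← h3, h0, zero_mul])
  have h5 := congrArg HahnSeries.order h3
  rw [HahnSeries.order_mul h4 hv] at h5
  omega

/-- `φ (2 m) = φ m ^ 2`. -/
theorem dlogS_coeff_two_mul {v : LaurentSeries K} (hv : v ≠ 0) (m : ℤ) :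
    (dlogS v).coeff (2 * m) = (dlogS v).coeff m ^ 2 := by
  have : CharP (LaurentSeries K) 2 :=
    charP_of_injective_algebraMap (algebraMap K (LaurentSeries K)).injective 2
  have : Fact (Nat.Prime 2) := ⟨Nat.prime_two⟩
  set f := dlogS v with hf
  have h3 : f * v = theta v := div_mul_cancel₀ _ hv
  have h4 : theta f * v + f * (f * v) = f * v := by
    have h4' := congrArg (fun z => theta z) h3
    simp only [theta_mul, theta_theta] at h4'
    rw [h3]
    exact h4'
  have h5 : theta f = f + f ^ 2 := by
    refine mul_right_cancel₀ hv ?_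
    calc theta f * v = theta f * v + f * (f * v) + f * (f * v) := by
          rw [add_assoc, CharTwo.add_self_eq_zero, add_zero]
      _ = f * v + f * (f * v) := by rw [h4]
      _ = (f + f ^ 2) * v := by ring
  have h6 := congrArg (fun z : LaurentSeries K => z.coeff (2 * m)) h5
  simp only [theta_coeff, HahnSeries.coeff_add] at h6
  rw [Congruence.laurent_pow_char 2 f] at h6
  have h7 : (qExpand K 2 (coeffMap (frobenius K 2) f)).coeff (2 * m) = f.coeff m ^ 2 := by
    rw [show (2 : ℤ) * m = ((2 : ℕ) : ℤ) * m by norm_num, qExpand_coeff_mul, coeffMap_coeff,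
      frobenius_def]
  rw [h7, Int.cast_mul, show ((2 : ℤ) : K) = 0 by rw [Int.cast_ofNat]; exact CharTwo.two_eq_zero, zero_mul,
    zero_mul] at h6
  exact CharTwo.add_eq_zero.mp h6.symm

variable {l : ℕ} [NeZero l] (hl : (l : K) = 1) {c : Kˣ} (hc : c ^ l = 1)
  {u w : LaurentSeries K} (hu : u ≠ 0) (hw : w ≠ 0)

include hl hc hu hw

omit [CharP K 2] [NeZero l] hu hw in
theorem coeff_sum_twist (n : ℤ) :
    (∑ b : Fin l, Congruence.twist (c ^ (b : ℕ)) (dlogS u)).coeff ((l : ℤ) * n) =
      (dlogS u).coeff ((l : ℤ) * n) := by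
  have hb : ∀ b : Fin l, (Congruence.twist (c ^ (b : ℕ)) (dlogS u)).coeff ((l : ℤ) * n) =
      (dlogS u).coeff ((l : ℤ) * n) := fun b => by
    rw [Congruence.twist_coeff, zpow_mul, zpow_natCast, ← pow_mul, mul_comm (b : ℕ), pow_mul, hc,
      one_pow, one_zpow, Units.val_one, one_mul]
  rw [HahnSeries.coeff_sum, Finset.sum_congr rfl fun b _ => hb b, Finset.sum_const,
    Finset.card_univ, Fintype.card_fin, nsmul_eq_mul, hl, one_mul]

omit [CharP K 2] hw in
/-- The transposed operator at an odd prime dividing the level. -/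
theorem coeff_dlogS_dual (h : qExpand K l w = ∏ b : Fin l, Congruence.twist (c ^ (b : ℕ)) u)
    (n : ℤ) : (dlogS w).coeff n = (dlogS u).coeff ((l : ℤ) * n) := by
  have h1 := congrArg dlogS h
  rw [dlogS_qExpand, hl, one_smul, dlogS_prod _ _ fun b _ => (map_ne_zero _).mpr hu,
    Finset.sum_congr rfl fun (b : Fin l) _ => dlogS_twist (c ^ (b : ℕ)) u] at h1
  have h2 := congrArg (fun z : LaurentSeries K => z.coeff ((l : ℤ) * n)) h1
  simp only [qExpand_coeff_mul] at h2
  rw [h2, coeff_sum_twist hl hc n]

omit [CharP K 2] hw in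
/-- The Hecke operator at an odd prime: the coefficient at `l n`. -/
theorem coeff_dlogS_hecke (h : qExpand K l w = qExpand K l (qExpand K l u) *
      ∏ b : Fin l, Congruence.twist (c ^ (b : ℕ)) u) (n : ℤ) :
    (dlogS w).coeff n = (qExpand K l (dlogS u)).coeff n + (dlogS u).coeff ((l : ℤ) * n) := by
  have h1 := congrArg dlogS h
  rw [dlogS_mul ((map_ne_zero _).mpr ((map_ne_zero _).mpr hu))
      (Finset.prod_ne_zero_iff.mpr fun b _ => (map_ne_zero _).mpr hu),
    dlogS_qExpand, dlogS_qExpand, dlogS_qExpand, hl, one_smul, one_smul, one_smul,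
    dlogS_prod _ _ fun b _ => (map_ne_zero _).mpr hu,
    Finset.sum_congr rfl fun (b : Fin l) _ => dlogS_twist (c ^ (b : ℕ)) u] at h1
  have h2 := congrArg (fun z : LaurentSeries K => z.coeff ((l : ℤ) * n)) h1
  simp only [qExpand_coeff_mul, HahnSeries.coeff_add] at h2
  rw [h2, coeff_sum_twist hl hc n]

omit hl hc hu hw

/-- The reduction of `T₂`: coefficients are squared. -/
theorem dlogS_frobenius {u : LaurentSeries K} (hu : u ≠ 0) [Fact (Nat.Prime 2)] :
    dlogS (qExpand K 2 u * coeffMap (frobenius K 2) u) = coeffMap (frobenius K 2) (dlogS u) := by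
  rw [dlogS_mul ((map_ne_zero _).mpr hu) ((map_ne_zero _).mpr hu), dlogS_qExpand,
    show ((2 : ℕ) : K) = 0 from CharP.cast_eq_zero K 2, zero_smul, zero_add, dlogS, dlogS,
    theta_coeffMap, map_div₀]

end Fermat.Agent.TwoAdic.MultOne
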