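import Fermat.Agent.FunctionFieldRR.Basic
import Fermat.Agent.LevelP.Theta
import Mathlib.FieldTheory.PurelyInseparable.PerfectClosure

/-!
# Function fields of series in characteristic two: `q d/dq` kills exactly the squares

If a function field `G ⊆ k((q))` over an algebraically closed field of characteristic two contains
`j` with `θ j ≠ 0`, then `G` is separable over `k(j)`, hence `G = G² + G² j`, and an element killed
by `θ` is a square in `G`.
-/

set_option autoImplicit false

noncomputable section

open Polynomial IntermediateField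
open Fermat.Agent.FunctionFieldRR Fermat.Agent.LevelP

namespace Fermat.Agent.TwoAdic.MultOne

variable {k : Type*} [Field k] [CharP k 2] [IsAlgClosed k] {G : IntermediateField k (LaurentSeries k)}

omit [IsAlgClosed k] in
theorem charTwo_series : CharP (LaurentSeries k) 2 :=
  charP_of_injective_algebraMap (algebraMap k (LaurentSeries k)).injective 2

omit [IsAlgClosed k] in
theorem theta_sq (x : LaurentSeries k) : theta (x ^ 2) = 0 := by
  have := charTwo_series (k := k)
  rw [sq, theta_mul, mul_comm x, CharTwo.add_self_eq_zero]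

omit [IsAlgClosed k] in
/-- `θ (a² + b² c) = b² θ c`. -/
theorem theta_sq_add (a b c : LaurentSeries k) :
    theta (a ^ 2 + b ^ 2 * c) = b ^ 2 * theta c := by
  rw [map_add, theta_sq, zero_add, theta_mul, theta_sq, zero_mul, zero_add]

/-- The elements `a² + b² j` with `a b ∈ K`. -/
def twoBasis (K : IntermediateField k G) (j : G) (hj : j ∈ K) : IntermediateField k G where
  carrier := {z | ∃ a ∈ K, ∃ b ∈ K, z = a ^ 2 + b ^ 2 * j}
  zero_mem' := ⟨0, zero_mem K, 0, zero_mem K, by ring⟩
  one_mem' := ⟨1, one_mem K, 0, zero_mem K, by ring⟩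
  add_mem' := by
    rintro _ _ ⟨a, ha, b, hb, rfl⟩ ⟨c, hc, d, hd, rfl⟩
    have : CharP G 2 := charP_of_injective_algebraMap (algebraMap k G).injective 2
    exact ⟨a + c, add_mem ha hc, b + d, add_mem hb hd, by rw [CharTwo.add_sq, CharTwo.add_sq]; ring⟩
  mul_mem' := by
    rintro _ _ ⟨a, ha, b, hb, rfl⟩ ⟨c, hc, d, hd, rfl⟩
    have : CharP G 2 := charP_of_injective_algebraMap (algebraMap k G).injective 2
    exact ⟨a * c + b * d * j, add_mem (mul_mem ha hc) (mul_mem (mul_mem hb hd) hj), a * d + b * c,
      add_mem (mul_mem ha hd) (mul_mem hb hc), by rw [CharTwo.add_sq, CharTwo.add_sq]; ring⟩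
  algebraMap_mem' c := by
    obtain ⟨r, hr⟩ := IsAlgClosed.exists_pow_nat_eq c two_pos
    exact ⟨algebraMap k G r, K.algebraMap_mem r, 0, zero_mem K, by rw [← hr, map_pow]; ring⟩
  inv_mem' := by
    rintro _ ⟨a, ha, b, hb, rfl⟩
    set z := a ^ 2 + b ^ 2 * j with hz
    have hzK : z ∈ K := add_mem (pow_mem ha 2) (mul_mem (pow_mem hb 2) hj)
    refine ⟨a * z⁻¹, mul_mem ha (inv_mem hzK), b * z⁻¹, mul_mem hb (inv_mem hzK), ?_⟩
    rcases eq_or_ne z 0 with h0 | h0
    · simp [h0]
    · calc z⁻¹ = z * z⁻¹ ^ 2 := by field_simp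
        _ = _ := by rw [hz]; ring

theorem mem_twoBasis {K : IntermediateField k G} {j : G} {hj : j ∈ K} {z : G} :
    z ∈ twoBasis K j hj ↔ ∃ a ∈ K, ∃ b ∈ K, z = a ^ 2 + b ^ 2 * j := Iff.rfl

/-- Everything in `k(j)` is `a² + b² j` with `a b ∈ k(j)`. -/
theorem adjoin_le_twoBasis (j : G) :
    k⟮j⟯ ≤ twoBasis k⟮j⟯ j (mem_adjoin_simple_self k j) :=
  adjoin_simple_le_iff.mpr ⟨0, zero_mem _, 1, one_mem _, by ring⟩

/-- If `1` and `j` are independent over the squares of `E` and every element of `K` is `a² + b² j`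
with `a b ∈ K`, then algebraic elements of `E` are separable over `K`. -/
theorem isSeparable_of_decomp {K E : Type*} [Field K] [CharP K 2] [Field E] [Algebra K E]
    [CharP E 2] {j : E} (hind : ∀ a b : E, a ^ 2 + b ^ 2 * j = 0 → b = 0)
    (hdec : ∀ c : K, ∃ a b : K,
      algebraMap K E c = algebraMap K E a ^ 2 + algebraMap K E b ^ 2 * j)
    {z : E} (hz : IsIntegral K z) : IsSeparable K z := by
  rcases separable_or 2 (minpoly.irreducible hz) with h | ⟨-, g, hg, hgf⟩
  · exact h
  exfalso
  have hdeg : g.natDegree * 2 = (minpoly K z).natDegree := by rw [← hgf, natDegree_expand]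
  have hgpos : 0 < g.natDegree := by have := minpoly.natDegree_pos hz; omega
  choose a b hab using fun i => hdec (g.coeff i)
  let pA : K[X] := ∑ i ∈ Finset.range (g.natDegree + 1), monomial i (a i)
  let pB : K[X] := ∑ i ∈ Finset.range (g.natDegree + 1), monomial i (b i)
  have hev : aeval z pA ^ 2 + aeval z pB ^ 2 * j = 0 := by
    have h := minpoly.aeval K z
    rw [← hgf, expand_aeval, aeval_eq_sum_range] at h
    simp only [pA, pB, map_sum, aeval_monomial]
    rw [sum_pow_char 2, sum_pow_char 2, Finset.sum_mul, ← Finset.sum_add_distrib, ← h]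
    refine Finset.sum_congr rfl fun i _ => ?_
    rw [Algebra.smul_def, hab i]
    ring
  have hB : aeval z pB = 0 := hind _ _ hev
  have hA : aeval z pA = 0 := by
    rw [hB, zero_pow two_ne_zero, zero_mul, add_zero] at hev
    exact pow_eq_zero_iff two_ne_zero |>.mp hev
  have hsmall : ∀ c : ℕ → K,
      aeval z (∑ i ∈ Finset.range (g.natDegree + 1), monomial i (c i)) = 0 →
      ∀ i ≤ g.natDegree, c i = 0 := by
    intro c hc i hi
    set q := ∑ i ∈ Finset.range (g.natDegree + 1), monomial i (c i) with hq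
    have hle : q.natDegree ≤ g.natDegree := natDegree_sum_le_of_forall_le _ _ fun l hl =>
      (natDegree_monomial_le _).trans (Nat.lt_succ_iff.mp (Finset.mem_range.mp hl))
    have hq0 : q = 0 := by
      by_contra h0
      have := natDegree_le_natDegree (minpoly.degree_le_of_ne_zero K z h0 hc)
      omega
    have := congrArg (fun p : K[X] => p.coeff i) hq0
    simpa [hq, finsetSum_coeff, coeff_monomial, Nat.lt_succ_of_le hi] using this
  refine hg.ne_zero (Polynomial.ext fun i => ?_)
  rw [coeff_zero]
  rcases le_or_gt i g.natDegree with hi | hi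
  · refine (algebraMap K E).injective ?_
    rw [hab i, hsmall _ hA i hi, hsmall _ hB i hi, map_zero]
    ring
  · exact coeff_eq_zero_of_natDegree_lt hi

variable [IsFunctionField k G]

set_option synthInstance.maxHeartbeats 80000 in
/-- `G` is separable over `k(j)`. -/
theorem isSeparable_of_theta_ne_zero {j : G} (hj : theta (j : LaurentSeries k) ≠ 0) (z : G) :
    IsSeparable k⟮j⟯ z := by
  have hjt : Transcendental k j := by
    rcases eq_algebraMap_or_transcendental (K := k) j with ⟨c, hc⟩ | h
    · refine absurd ?_ hj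
      rw [hc, IntermediateField.coe_algebraMap_apply,
        ModularCurve.algebraMap_laurentSeries_eq_single, theta_single_zero]
    · exact h
  have := finiteDimensional_adjoin hjt
  have : CharP k⟮j⟯ 2 := charP_of_injective_algebraMap (algebraMap k k⟮j⟯).injective 2
  have : CharP G 2 := charP_of_injective_algebraMap (algebraMap k G).injective 2
  refine isSeparable_of_decomp (j := j) (fun a b h => ?_) (fun c => ?_) (IsIntegral.of_finite _ z)
  · have h' := congrArg (fun x : G => theta (x : LaurentSeries k)) h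
    simp only [AddMemClass.coe_add, MulMemClass.coe_mul, SubmonoidClass.coe_pow, theta_sq_add,
      ZeroMemClass.coe_zero, map_zero] at h'
    exact Subtype.ext (pow_eq_zero_iff two_ne_zero |>.mp ((mul_eq_zero.mp h').resolve_right hj))
  · obtain ⟨a, ha, b, hb, hab⟩ := mem_twoBasis.mp (adjoin_le_twoBasis j c.2)
    exact ⟨⟨a, ha⟩, ⟨b, hb⟩, hab⟩

set_option synthInstance.maxHeartbeats 80000 in
/-- An element of `G` killed by `θ` is a square in `G`. -/
theorem exists_sq_of_theta_eq_zero {j : G} (hj : theta (j : LaurentSeries k) ≠ 0) {y : G}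
    (hy : theta (y : LaurentSeries k) = 0) : ∃ z : G, y = z ^ 2 := by
  have : CharP k⟮j⟯ 2 := charP_of_injective_algebraMap (algebraMap k k⟮j⟯).injective 2
  have : ExpChar k⟮j⟯ 2 := ExpChar.prime Nat.prime_two
  have hmem : y ∈ twoBasis ⊤ j IntermediateField.mem_top := by
    have h1 : y ∈ (k⟮j⟯)⟮y ^ 2⟯ := by
      rw [← adjoin_simple_eq_adjoin_pow_expChar_of_isSeparable k⟮j⟯ G
        (isSeparable_of_theta_ne_zero hj y) 2]
      exact mem_adjoin_simple_self _ y
    have hle : (k⟮j⟯)⟮y ^ 2⟯.restrictScalars k ≤ twoBasis ⊤ j IntermediateField.mem_top := by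
      rw [adjoin_simple_adjoin_simple, adjoin_le_iff]
      rintro x (rfl | rfl)
      · exact ⟨0, zero_mem _, 1, one_mem _, by ring⟩
      · exact ⟨y, IntermediateField.mem_top, 0, zero_mem _, by ring⟩
    exact hle h1
  obtain ⟨a, -, b, -, rfl⟩ := hmem
  rw [AddMemClass.coe_add, MulMemClass.coe_mul, SubmonoidClass.coe_pow, SubmonoidClass.coe_pow,
    theta_sq_add, mul_eq_zero, or_iff_left hj, pow_eq_zero_iff two_ne_zero] at hy
  exact ⟨a, by rw [show b = 0 from Subtype.ext hy]; ring⟩

end Fermat.Agent.TwoAdic.MultOne
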