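import Fermat.Agent.TwoAdic.MultOne.DualOp
import Fermat.Agent.TwoAdic.MultOne.Squares
import Fermat.Agent.TwoAdic.MultOne.Series
import Fermat.Agent.OrdinaryT.Kernel
import Fermat.Agent.MazurPrinciple.HeckeSeries

/-!
# The logarithmic derivative of a two-torsion class

For `x ∈ J₀(M)[2]`, `M` odd, let `u` be a function with divisor `2 D`, `D` in the class `x`, with
nonzero reduction `ū`. Then `θ ū / ū` depends only on `x`, is additive in `x`, vanishes exactly on
`goodKilled 2`, and transforms under the Hecke correspondences by the usual formulas.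
-/

set_option autoImplicit false

noncomputable section

open IsLocalRing ModularCurve AlgebraicCurve
open Fermat.Agent.Reduction Fermat.Agent.SemistableRed Fermat.Agent.OrdinaryT
open Fermat.Agent.LevelP

namespace Fermat.Agent.TwoAdic.MultOne

local notation "Ω" => AlgebraicClosure ℚ

variable {A : ValuationSubring Ω} {M : ℕ} [NeZero M] [Fact (2 : ℕ).Prime]
  [CharP (ResidueField A) 2] [IsAlgClosed (ResidueField A)] (S : Setting A M 2)

/-- `φ` is the logarithmic derivative of the reduction of a function of `x`. -/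
def IsDlog (A : ValuationSubring Ω) {M : ℕ} [NeZero M] (x : JZero M)
    (φ : LaurentSeries (ResidueField A)) : Prop :=
  ∃ (u : modularFunctionFieldBar M) (v : LaurentSeries (ResidueField A)),
    IsFunctionOf 2 x u ∧ SRep (u : LaurentSeries Ω) v ∧ v ≠ 0 ∧ φ = dlogS v

include S in
set_option synthInstance.maxHeartbeats 80000 in
theorem exists_srep_smul {f : modularFunctionFieldBar M} (hf : f ≠ 0) :
    ∃ (c : Ω) (v : LaurentSeries (ResidueField A)), c ≠ 0 ∧ v ≠ 0 ∧
      SRep ((c • f : modularFunctionFieldBar M) : LaurentSeries Ω) v := by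
  obtain ⟨a, ha, hai, har⟩ := S.model.exists_scale hf
  exact ⟨a, _, ha, fun h => har (Subtype.ext h), S.srep_level _ hai⟩

include S in
theorem exists_isDlog {x : JZero M} (hx : 2 • x = 0) : ∃ φ, IsDlog A x φ := by
  have := isFunctionField_level M
  obtain ⟨u, hu⟩ := exists_isFunctionOf hx
  obtain ⟨c, v, hc, hv, hr⟩ := exists_srep_smul S hu.1
  obtain ⟨hu0, D, hD, hD'⟩ := hu
  refine ⟨_, c • u, v, ⟨smul_ne_zero hc hu0, D, hD, fun P => ?_⟩, hr, hv, rfl⟩
  rw [Algebra.smul_def, P.ord_mul ((map_ne_zero _).mpr hc) hu0, FunctionFieldRR.ord_algebraMap,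
    zero_add, hD']

omit [NeZero M] [Fact (Nat.Prime 2)] in
theorem coe_const_mul (a : Ω) (f : modularFunctionFieldBar M) :
    ((algebraMap Ω (modularFunctionFieldBar M) a * f : modularFunctionFieldBar M) :
      LaurentSeries Ω) = algebraMap Ω (LaurentSeries Ω) a * f := by
  rw [MulMemClass.coe_mul, IntermediateField.coe_algebraMap_apply]

include S in
/-- The logarithmic derivative depends only on the class. -/
theorem IsDlog.unique {x : JZero M} {φ φ' : LaurentSeries (ResidueField A)} (h : IsDlog A x φ)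
    (h' : IsDlog A x φ') : φ = φ' := by
  have := isFunctionField_level M
  have := HeckeJ0.hasPrincipalDivisors_bar M
  have : CharP (LaurentSeries (ResidueField A)) 2 :=
    charP_of_injective_algebraMap
      (algebraMap (ResidueField A) (LaurentSeries (ResidueField A))).injective 2
  obtain ⟨u, v, hu, hv, hv0, rfl⟩ := h
  obtain ⟨u', v', hu', hv', hv'0, rfl⟩ := h'
  obtain ⟨a, g, ha, hg, he⟩ := hu.exists_eq hu'
  obtain ⟨d, w, hd, hw0, hw⟩ := exists_srep_smul S hg
  have hcoe : ((u' : modularFunctionFieldBar M) : LaurentSeries Ω) =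
      algebraMap Ω (LaurentSeries Ω) (a / d ^ 2) *
        (((d • g : modularFunctionFieldBar M) : LaurentSeries Ω) ^ 2 * (u : LaurentSeries Ω)) := by
    rw [he, Algebra.smul_def, mul_assoc, coe_const_mul, coe_const_mul]
    simp only [MulMemClass.coe_mul, SubmonoidClass.coe_pow, map_div₀, map_pow]
    have hd' : algebraMap Ω (LaurentSeries Ω) d ≠ 0 := (map_ne_zero _).mpr hd
    field_simp
  have hy := (hw.pow 2).mul hv
  by_cases he' : a / d ^ 2 ∈ A
  · have h1 := hv'.unique (hcoe ▸ (SRep.const ⟨_, he'⟩).mul hy)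
    have hr : algebraMap (ResidueField A) (LaurentSeries (ResidueField A))
        (residue A ⟨_, he'⟩) ≠ 0 := fun h0 => hv'0 (by rw [h1, h0, zero_mul])
    rw [h1, dlogS_mul hr (mul_ne_zero (pow_ne_zero _ hw0) hv0),
      dlogS_mul (pow_ne_zero _ hw0) hv0, algebraMap_laurentSeries_eq_single, dlogS_single, sq,
      dlogS_mul hw0 hw0, CharTwo.add_self_eq_zero, zero_add, zero_add]
  · exfalso
    have hinv : (a / d ^ 2)⁻¹ ∈ A := (A.mem_or_inv_mem _).resolve_left he'
    have hne : a / d ^ 2 ≠ 0 := fun h0 => he' (h0 ▸ A.zero_mem)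
    have hres : residue A ⟨_, hinv⟩ = 0 := by
      rw [residue_eq_zero_iff, mem_maximalIdeal, mem_nonunits_iff]
      intro hunit
      obtain ⟨b, hb⟩ := hunit.exists_right_inv
      have hb' : (a / d ^ 2)⁻¹ * (b : Ω) = 1 := congrArg Subtype.val hb
      apply he'
      have : (b : Ω) = a / d ^ 2 := by
        rw [← mul_right_inj' (inv_ne_zero hne), hb', inv_mul_cancel₀ hne]
      exact this ▸ b.2
    have h1 := (SRep.const ⟨_, hinv⟩).mul hv'
    rw [hres, map_zero, zero_mul, hcoe, ← mul_assoc] at h1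
    have h2 : algebraMap Ω (LaurentSeries Ω) ((a / d ^ 2)⁻¹) *
        algebraMap Ω (LaurentSeries Ω) (a / d ^ 2) = 1 := by
      rw [← map_mul, inv_mul_cancel₀ hne, map_one]
    rw [h2, one_mul] at h1
    exact mul_ne_zero (pow_ne_zero _ hw0) hv0 (hy.unique h1)

omit [Fact (Nat.Prime 2)] [CharP (ResidueField A) 2] [IsAlgClosed (ResidueField A)] in
/-- The logarithmic derivative is additive. -/
theorem IsDlog.add {x y : JZero M} {φ ψ : LaurentSeries (ResidueField A)} (h : IsDlog A x φ)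
    (h' : IsDlog A y ψ) : IsDlog A (x + y) (φ + ψ) := by
  have := isFunctionField_level M
  obtain ⟨u, v, hu, hv, hv0, rfl⟩ := h
  obtain ⟨u', v', hu', hv', hv'0, rfl⟩ := h'
  refine ⟨u * u', v * v', hu.mul hu', ?_, mul_ne_zero hv0 hv'0, (dlogS_mul hv0 hv'0).symm⟩
  rw [MulMemClass.coe_mul]
  exact hv.mul hv'

omit [NeZero M] [Fact (Nat.Prime 2)] [CharP (ResidueField A) 2] [IsAlgClosed (ResidueField A)] in
theorem theta_jbar_ne_zero : theta ((jbar (ResidueField A) M :
    modularFunctionFieldFullC (ResidueField A) M) : LaurentSeries (ResidueField A)) ≠ 0 := by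
  intro h
  have h1 := congrArg (fun z : LaurentSeries (ResidueField A) => z.coeff (-1)) h
  simp [jbar, theta_coeff, coeff_jqModC_neg_one] at h1

include S in
/-- **The kernel of the logarithmic derivative.** -/
theorem IsDlog.mem_goodKilled {x : JZero M} (h : IsDlog A x 0) : x ∈ goodKilled S 2 := by
  have := isFunctionField_level M
  have := isFunctionField_level (M * 2)
  have := S.isFunctionField_C
  obtain ⟨u, v, hu, hv, hv0, h0⟩ := h
  have hmem := srep_mem_level S hv
  have hth : theta v = 0 := (div_eq_zero_iff.mp h0.symm).resolve_right hv0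
  obtain ⟨z, hz⟩ := exists_sq_of_theta_eq_zero theta_jbar_ne_zero (y := ⟨v, hmem⟩) hth
  have hz' : v = (z : LaurentSeries (ResidueField A)) ^ 2 :=
    (congrArg Subtype.val hz).trans (SubmonoidClass.coe_pow z 2)
  have hz0 : z ≠ 0 := fun h1 => hv0 (by rw [hz', h1, ZeroMemClass.coe_zero, zero_pow two_ne_zero])
  refine (mem_goodKilled_iff S hu).mpr (powRed_of_srep S ((map_ne_zero _).mpr hu.1) (c := 1)
    (y := z) hz0 ?_)
  rw [one_smul, (S.side_alpha u).1, ← hz']
  exact hv

omit [Fact (Nat.Prime 2)] [IsAlgClosed (ResidueField A)] in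
/-- **`T_ℓ` at an odd prime not dividing the level.** -/
theorem IsDlog.hecke {ℓ : ℕ} [Fact ℓ.Prime] [NeZero ℓ] (hℓM : ¬ ℓ ∣ M) (hℓ2 : ℓ ≠ 2) {x : JZero M}
    {φ : LaurentSeries (ResidueField A)} (h : IsDlog A x φ) :
    ∃ ψ, IsDlog A (heckeOperatorAlong Ω M ℓ x) ψ ∧ ∀ n : ℤ, ψ.coeff n =
      (qExpand (ResidueField A) ℓ φ).coeff n + φ.coeff ((ℓ : ℤ) * n) := by
  obtain ⟨u, v, hu, hv, hv0, rfl⟩ := h
  obtain ⟨v', hv', he⟩ := MazurPrinciple.srep_Tfun (A := A) Fact.out hℓM hv
  have hv'0 : v' ≠ 0 := fun h0 =>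
    MazurPrinciple.TSer_ne_zero (MazurPrinciple.zbar A ℓ) hv0 (by rw [← he, h0, map_zero])
  refine ⟨dlogS v', ⟨_, v', isFunctionOf_heckeFun hu, hv', hv'0, rfl⟩, fun n => ?_⟩
  refine coeff_dlogS_hecke ?_ (c := MazurPrinciple.zbar A ℓ) ?_ hv0 he n
  · have hodd : Odd ℓ := (Fact.out : ℓ.Prime).odd_of_ne_two hℓ2
    obtain ⟨m, rfl⟩ := hodd
    push_cast
    rw [CharTwo.two_eq_zero, zero_mul, zero_add]
  · rw [MazurPrinciple.zbar, ← map_pow]
    refine (congrArg _ (Units.ext (Subtype.ext ?_))).trans (map_one _)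
    simpa using (MazurPrinciple.exists_zeta A ℓ).choose_spec.pow_eq_one

omit [IsAlgClosed (ResidueField A)] in
/-- **`T₂`: the coefficients are squared.** -/
theorem IsDlog.hecke_two (hM : ¬ 2 ∣ M) {x : JZero M} {φ : LaurentSeries (ResidueField A)}
    (h : IsDlog A x φ) :
    IsDlog A (heckeOperatorAlong Ω M 2 x) (coeffMap (frobenius (ResidueField A) 2) φ) := by
  obtain ⟨u, v, hu, hv, hv0, rfl⟩ := h
  obtain ⟨v', hv', he⟩ := MazurPrinciple.srep_Tfun (A := A) Nat.prime_two hM hv
  have hz : MazurPrinciple.zbar A 2 = 1 := by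
    have h1 : (MazurPrinciple.zbar A 2 : ResidueField A) ^ 2 = 1 := by
      rw [MazurPrinciple.zbar, ← Units.val_pow_eq_pow_val, ← map_pow]
      refine congrArg Units.val ((congrArg _ (Units.ext (Subtype.ext ?_))).trans (map_one _))
      simpa using (MazurPrinciple.exists_zeta A 2).choose_spec.pow_eq_one
    refine Units.ext ?_
    rw [Units.val_one, ← sub_eq_zero, ← pow_eq_zero_iff two_ne_zero, sub_pow_char, h1, one_pow,
      sub_self]
  have he' : v' = qExpand (ResidueField A) 2 v * coeffMap (frobenius (ResidueField A) 2) v := by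
    refine qExpand_injective (R := ResidueField A) 2 (he.trans ?_)
    simp only [MazurPrinciple.TSer, hz, one_pow, Congruence.twist_one, Finset.prod_const,
      Finset.card_univ, Fintype.card_fin, map_mul]
    rw [Congruence.laurent_pow_char 2 v]
  have hv'0 : v' ≠ 0 := fun h0 =>
    MazurPrinciple.TSer_ne_zero (MazurPrinciple.zbar A 2) hv0 (by rw [← he, h0, map_zero])
  refine ⟨_, v', isFunctionOf_heckeFun hu, hv', hv'0, ?_⟩
  rw [he', dlogS_frobenius hv0]

omit [Fact (Nat.Prime 2)] [IsAlgClosed (ResidueField A)] in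
/-- **The transposed operator at a prime dividing the level.** -/
theorem IsDlog.dual {ℓ : ℕ} [Fact ℓ.Prime] [NeZero ℓ] (hℓM : ℓ ∣ M) (hℓ2 : ℓ ≠ 2) {x : JZero M}
    {φ : LaurentSeries (ResidueField A)} (h : IsDlog A x φ) :
    ∃ ψ, IsDlog A (dualHecke M ℓ x) ψ ∧ ∀ n : ℤ, ψ.coeff n = φ.coeff ((ℓ : ℤ) * n) := by
  obtain ⟨u, v, hu, hv, hv0, rfl⟩ := h
  set ζA := (MazurPrinciple.exists_zeta A ℓ).choose
  have hζ : IsPrimitiveRoot ((Units.map (A.subtype : A →* Ω) ζA : Ωˣ) : Ω) ℓ :=
    (MazurPrinciple.exists_zeta A ℓ).choose_spec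
  have key := qExpand_dualFun hℓM (Units.map (A.subtype : A →* Ω) ζA) hζ u
  have hr : SRep (qExpand Ω ℓ ((dualFun M ℓ u : modularFunctionFieldBar M) : LaurentSeries Ω))
      (∏ b : Fin ℓ, Congruence.twist (MazurPrinciple.zbar A ℓ ^ (b : ℕ)) v) := by
    rw [key]
    refine SRep.prod (A := A) Finset.univ fun b _ => ?_
    have := MazurPrinciple.srep_twist (ζA ^ (b : ℕ)) hv
    rwa [map_pow, map_pow] at this
  obtain ⟨v', hv', he⟩ := MazurPrinciple.srep_descend hr
  have hv'0 : v' ≠ 0 := fun h0 => by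
    rw [h0, map_zero] at he
    exact Finset.prod_ne_zero_iff.mpr (fun b _ => (map_ne_zero _).mpr hv0) he.symm
  refine ⟨dlogS v', ⟨_, v', isFunctionOf_dualFun M ℓ hu, hv', hv'0, rfl⟩, fun n => ?_⟩
  refine coeff_dlogS_dual ?_ (c := MazurPrinciple.zbar A ℓ) ?_ hv0 he n
  · obtain ⟨m, rfl⟩ := (Fact.out : ℓ.Prime).odd_of_ne_two hℓ2
    push_cast
    rw [CharTwo.two_eq_zero, zero_mul, zero_add]
  · rw [MazurPrinciple.zbar, ← map_pow]
    refine (congrArg _ (Units.ext (Subtype.ext ?_))).trans (map_one _)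
    simpa using (MazurPrinciple.exists_zeta A ℓ).choose_spec.pow_eq_one

end Fermat.Agent.TwoAdic.MultOne
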