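import Fermat.Agent.HeckeJ0.Model
import Fermat.Agent.SemistableRed.PoleFacts

/-!
# The degree of the second degeneracy map at a prime dividing the level

For `ℓ ∣ N` the map `f ↦ f(ℓ τ)` from level `N` into level `N ℓ` has degree `ℓ`: the levels `N ℓ`
over `j(τ)` and over `j(ℓ τ)` have the same degree, as this is so at level `ℓ`.
-/

set_option autoImplicit false

noncomputable section

open AlgebraicCurve ModularCurve
open Fermat.Agent.X0Analytic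

namespace Fermat.Agent.TwoAdic.MultOne

local notation "ℚbar" => AlgebraicClosure ℚ

/-- Equal levels have the same expansions. -/
theorem exists_levelEquiv {n m : ℕ} [NeZero n] [NeZero m] (h : n = m) :
    ∃ e : modularFunctionFieldBar n ≃ₐ[ℚbar] modularFunctionFieldBar m,
      ∀ x, ((e x : modularFunctionFieldBar m) : LaurentSeries ℚbar) = x := by
  subst h
  exact ⟨AlgEquiv.refl, fun _ => rfl⟩

theorem finrankAlong_beta_of_dvd (N ℓ : ℕ) [NeZero N] [NeZero ℓ] [Fact ℓ.Prime] (h : ℓ ∣ N) :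
    finrankAlong ℚbar (heckeBetaBar ℚbar N ℓ) = ℓ := by
  have hℓ : ℓ.Prime := Fact.out
  have : NeZero (1 * ℓ * N) := ⟨mul_ne_zero (by simpa using hℓ.ne_zero) (NeZero.ne N)⟩
  obtain ⟨e, he⟩ := exists_levelEquiv (n := 1 * ℓ * N) (m := N * ℓ) (by ring)
  set i := e.toAlgHom.comp (heckeAlphaBar ℚbar (1 * ℓ) N)
  have hi : ∀ x, ((i x : modularFunctionFieldBar (N * ℓ)) : LaurentSeries ℚbar) = x := fun x =>
    (he _).trans (coe_heckeAlphaBar (1 * ℓ) N x)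
  set y₁ := heckeBetaBar ℚbar 1 ℓ (jEl ℚbar 1)
  have hd1 : ¬ ℓ ∣ 1 := fun h1 => hℓ.not_dvd_one h1
  have hψ1 : dedekindPsi (1 * ℓ) = dedekindPsi 1 * (ℓ + 1) := by
    rw [Gamma0Count.dedekindPsi_mul_prime one_ne_zero hℓ, if_neg hd1, mul_comm]
  -- the degree over `j(ℓ τ)` at level `ℓ`
  have hb1 : Module.finrank (IntermediateField.adjoin ℚbar ({y₁} : Set _))
      (modularFunctionFieldBar (1 * ℓ)) = dedekindPsi 1 * (ℓ + 1) := by
    rw [← SemistableRed.finrankAlong_beta (M := 1) hℓ hd1]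
    exact (HeckeJ0.mul_finrankAlong_eq (heckeBetaBar ℚbar 1 ℓ) (jEl ℚbar 1) y₁ rfl _ _
      (finrank_jField HeckeJ0.qbarEmb) rfl).symm
  -- transport to level `N ℓ`
  have hij : i (jEl ℚbar (1 * ℓ)) = jEl ℚbar (N * ℓ) :=
    Subtype.ext ((hi _).trans ((HeckeJ0.coe_jEl (1 * ℓ)).trans (HeckeJ0.coe_jEl (N * ℓ)).symm))
  have hiy : i y₁ = heckeBetaBar ℚbar N ℓ (jEl ℚbar N) := Subtype.ext ((hi _).trans (by
    rw [coe_heckeBetaBar, coe_heckeBetaBar, HeckeJ0.coe_jEl, HeckeJ0.coe_jEl]))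
  have hj := HeckeJ0.mul_finrankAlong_eq i (jEl ℚbar (1 * ℓ)) (jEl ℚbar (N * ℓ)) hij _ _
    (finrank_jField HeckeJ0.qbarEmb) (finrank_jField HeckeJ0.qbarEmb)
  have hy := HeckeJ0.mul_finrankAlong_eq i y₁ (heckeBetaBar ℚbar N ℓ (jEl ℚbar N)) hiy _ _ hb1 rfl
  have hβ := HeckeJ0.mul_finrankAlong_eq (heckeBetaBar ℚbar N ℓ) (jEl ℚbar N)
    (heckeBetaBar ℚbar N ℓ (jEl ℚbar N)) rfl _ _ (finrank_jField HeckeJ0.qbarEmb) rfl
  rw [← hy, ← hψ1, hj, Gamma0Count.dedekindPsi_mul_prime (NeZero.ne N) hℓ, if_pos h] at hβ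
  rw [mul_comm ℓ (dedekindPsi N)] at hβ
  refine mul_left_cancel₀ (fun h0 => ?_) hβ
  rw [← Gamma0Count.index_Gamma0 N] at h0
  exact Subgroup.FiniteIndex.index_ne_zero h0

end Fermat.Agent.TwoAdic.MultOne
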