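import Fermat.Agent.TwoAdic.MultOne.DualDegree
import Fermat.Agent.HeckeJ0.TorsionModel

/-!
# The norm along `f ↦ f(ℓ τ)` at a prime dividing the level

For `ℓ ∣ N` the norm to level `N` along the second degeneracy map of a function of level `N` has
expansion `∏ f(ζ ^ b t)` in `t ^ ℓ`, and in meromorphic functions it is the product over the
standard representatives `(1 j; 0 ℓ)`.
-/

set_option autoImplicit false

noncomputable section

open Matrix.SpecialLinearGroup CongruenceSubgroup UpperHalfPlane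
open scoped MatrixGroups
open AlgebraicCurve ModularCurve
open Fermat.Agent.X0Analytic Fermat.Agent.HeckeJ0

namespace Fermat.Agent.TwoAdic.MultOne

local notation "ℚbar" => AlgebraicClosure ℚ

variable (N ℓ : ℕ) [NeZero N] [NeZero ℓ] [Fact ℓ.Prime]

/-- The function of the image under the transposed operator. -/
def dualFun (u : modularFunctionFieldBar N) : modularFunctionFieldBar N :=
  normAlong (heckeBetaBar ℚbar N ℓ) (heckeAlphaBar ℚbar N ℓ u)

omit [Fact (Nat.Prime ℓ)] in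
theorem betaFinite : FiniteAlong ℚbar (heckeBetaBar ℚbar N ℓ) :=
  finiteAlong_of_isFunctionField _

variable {N ℓ}

/-- **The expansion of the norm.** -/
theorem qExpand_dualFun (hℓN : ℓ ∣ N) (ζ : ℚbarˣ) (hζ : IsPrimitiveRoot (ζ : ℚbar) ℓ)
    (u : modularFunctionFieldBar N) :
    qExpand ℚbar ℓ ((dualFun N ℓ u : modularFunctionFieldBar N) : LaurentSeries ℚbar) =
      ∏ b : Fin ℓ, Congruence.twist (ζ ^ (b : ℕ)) (u : LaurentSeries ℚbar) := by
  have : CharZero (modularFunctionFieldBar N) :=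
    charZero_of_injective_algebraMap (algebraMap ℚbar (modularFunctionFieldBar N)).injective
  let algFG := algebraAlong (heckeBetaBar ℚbar N ℓ)
  have : Module.Finite (modularFunctionFieldBar N) (modularFunctionFieldBar (N * ℓ)) :=
    betaFinite N ℓ
  have hz : ∀ b : ℕ, (ζ ^ b : ℚbarˣ) ^ ℓ = 1 := fun b => by
    have hζ1 : ζ ^ ℓ = 1 := Units.ext (by simpa using hζ.pow_eq_one)
    rw [← pow_mul, mul_comm, pow_mul, hζ1, one_pow]
  let f : Fin ℓ → modularFunctionFieldBar (N * ℓ) →+* LaurentSeries ℚbar := fun b =>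
    (Congruence.twist (ζ ^ (b : ℕ))).comp (modularFunctionFieldBar (N * ℓ)).val.toRingHom
  let g : modularFunctionFieldBar N →+* LaurentSeries ℚbar :=
    (qExpand ℚbar ℓ).comp (modularFunctionFieldBar N).val.toRingHom
  have hf : ∀ b x, f b (heckeBetaBar ℚbar N ℓ x) = g x := fun b x => by
    show Congruence.twist (ζ ^ (b : ℕ))
      ((heckeBetaBar ℚbar N ℓ x : modularFunctionFieldBar (N * ℓ)) : LaurentSeries ℚbar) = _
    rw [coe_heckeBetaBar, Congruence.twist_qExpand_of_pow_eq_one (hz b)]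
    rfl
  have hinj : Function.Injective f := fun b b' h => by
    have hj := RingHom.congr_fun h
      ⟨jqModC ℚbar, Congruence.jqModC_mem_laurentBaseChange ℚbar (N * ℓ)⟩
    have h1 := congrArg (fun z : LaurentSeries ℚbar => z.coeff (-1 : ℤ)) hj
    simp only [f, RingHom.comp_apply, AlgHom.toRingHom_eq_coe, RingHom.coe_coe,
      IntermediateField.coe_val, Congruence.twist_coeff, coeff_jqModC_neg_one, mul_one] at h1
    refine Fin.ext (hζ.pow_inj b.isLt b'.isLt ?_)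
    simpa using h1
  have hcard : Fintype.card (Fin ℓ) =
      Module.finrank (modularFunctionFieldBar N) (modularFunctionFieldBar (N * ℓ)) := by
    rw [Fintype.card_fin]
    exact (finrankAlong_beta_of_dvd N ℓ hℓN).symm
  have h := Congruence.map_norm_eq_prod g f hf hinj hcard (heckeAlphaBar ℚbar N ℓ u)
  refine h.trans (Finset.prod_congr rfl fun b _ => ?_)
  show Congruence.twist (ζ ^ (b : ℕ))
    ((heckeAlphaBar ℚbar N ℓ u : modularFunctionFieldBar (N * ℓ)) : LaurentSeries ℚbar) = _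
  rw [coe_heckeAlphaBar]

/-- Matrices acting equally on `ℍ` act equally on meromorphic functions. -/
theorem act_congr {g h : GL (Fin 2) ℝ} (hg : 0 < g.det.val) (hh : 0 < h.det.val)
    (e : ∀ τ : ℍ, g • τ = h • τ) : act g = act h :=
  IsLocalization.ringHom_ext (nonZeroDivisors Hol) (RingHom.ext fun f => by
    simp only [RingHom.comp_apply, act_algebraMap hg, act_algebraMap hh]
    exact congrArg _ (Subtype.ext (funext fun τ => by simp [e τ])))

/-- The conjugate attached to a representative. -/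
def dualConj (x : Idx N ℓ) : modularFunctionFieldBar (N * ℓ) →+* Mer :=
  (act (rep x)).comp ((merModel qbarEmb).ι (N * ℓ))

omit [NeZero N] [NeZero ℓ] in
/-- The representatives at a prime dividing the level. -/
theorem rep_of_dvd (hℓN : ℓ ∣ N) (x : Idx N ℓ) : ∃ j : ZMod ℓ,
    x.1 = (j : OnePoint (ZMod ℓ)) ∧ IsTri (rep x) 1 j.val ℓ := by
  rcases rep_cases x with h | ⟨-, h, -⟩
  · exact h
  · exact absurd hℓN h

omit [NeZero N] [NeZero ℓ] in
theorem coe_rep_smul {x : Idx N ℓ} {j : ℕ} (h : IsTri (rep x) 1 j ℓ) (τ : ℍ) :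
    ((rep x • τ : ℍ) : ℂ) = ((τ : ℂ) + j) / ℓ := by
  rw [coe_smul_of_det_pos (det_pos_rep x), num, denom, h]
  simp

theorem merModel_dual (φ : ℚbar →+* ℂ) (hℓN : ℓ ∣ N) (x : Idx N ℓ)
    (a : modularFunctionFieldBar N) :
    act (rep x) ((merModel φ).ι (N * ℓ) (heckeBetaBar ℚbar N ℓ a)) = (merModel φ).ι N a := by
  obtain ⟨j₀, -, hj⟩ := rep_of_dvd hℓN x
  generalize j₀.val = j at hj
  let γ : Gamma0 N := ⟨⟨!![1, (j : ℤ); 0, 1], by simp [Matrix.det_fin_two_of]⟩,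
    (mem_Gamma0_iff_dvd _).mpr (by simp)⟩
  rw [(merModel φ).ι_heckeBetaBar, ← act_mul (det_pos_scaleGL ℓ) (det_pos_rep x),
    act_congr (det_pos_mul (det_pos_scaleGL ℓ) (det_pos_rep x)) (det_pos_mapGL (γ : SL(2, ℤ)))
      fun τ => UpperHalfPlane.ext ?_, (merModel φ).act_ι]
  rw [mul_smul, coe_scaleGL_smul, coe_rep_smul hj, coe_smul_of_det_pos (det_pos_mapGL _), num,
    denom]
  simp only [val_mapGL_apply]
  simp [γ, mul_div_cancel₀ _ (Nat.cast_ne_zero.mpr (NeZero.ne ℓ) : (ℓ : ℂ) ≠ 0)]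

omit [NeZero N] in
/-- Translates of `j` by `m / ℓ` differ unless `ℓ ∣ m`. -/
theorem dvd_of_jFun_eq {x y : Idx N ℓ} {i j : ℕ} (hx : IsTri (rep x) 1 i ℓ)
    (hy : IsTri (rep y) 1 j ℓ) (h : ∀ τ : ℍ, jFun (rep x • τ) = jFun (rep y • τ)) :
    (ℓ : ℤ) ∣ (i : ℤ) - j := by
  by_contra hd
  have hℓ : ℓ.Prime := Fact.out
  obtain ⟨w, z, hwz⟩ : IsCoprime (ℓ : ℤ) ((i : ℤ) - j) :=
    ((Nat.prime_iff_prime_int.mp hℓ).coprime_iff_not_dvd).mpr hd
  let γ₀ : SL(2, ℤ) := ⟨!![(ℓ : ℤ), -((i : ℤ) - j); z, w], by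
    rw [Matrix.det_fin_two_of]; linear_combination hwz⟩
  let g : SL(2, ℤ) := ⟨!![1, 0; z * ℓ, 1], by simp [Matrix.det_fin_two_of]⟩
  have : NeZero (ℓ * ℓ) := ⟨mul_ne_zero (NeZero.ne ℓ) (NeZero.ne ℓ)⟩
  have key : ∀ ρ : ℍ, scaledJ (ℓ * ℓ) ρ = jFun ρ := fun ρ => by
    obtain ⟨τ, rfl⟩ : ∃ τ : ℍ, g • rep y • τ = ρ := ⟨(rep y)⁻¹ • g⁻¹ • ρ, by simp⟩
    have e : scaleGL (ℓ * ℓ) • g • rep y • τ = γ₀ • rep x • τ := by
      refine UpperHalfPlane.ext ?_
      have ha : ∀ ρ : ℍ, ((g • ρ : ℍ) : ℂ) = (ρ : ℂ) / ((z : ℂ) * ℓ * ρ + 1) := fun ρ => by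
        rw [coe_specialLinearGroup_apply]; simp [g]
      have hb : ∀ ρ : ℍ, ((γ₀ • ρ : ℍ) : ℂ) =
          ((ℓ : ℂ) * ρ - ((i : ℂ) - j)) / ((z : ℂ) * ρ + w) := fun ρ => by
        rw [coe_specialLinearGroup_apply]; simp [γ₀, sub_eq_add_neg, add_comm]
      rw [coe_scaleGL_smul, ha, hb, coe_rep_smul hx, coe_rep_smul hy]
      have hℓ0 : (ℓ : ℂ) ≠ 0 := Nat.cast_ne_zero.mpr (NeZero.ne ℓ)
      have hw : (w : ℂ) * ℓ + z * ((i : ℂ) - j) = 1 := by exact_mod_cast hwz
      have hd' : (z : ℂ) * ℓ * (((τ : ℂ) + j) / ℓ) + 1 = z * (τ + j) + 1 := by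
        field_simp
      have hd2 : (z : ℂ) * (((τ : ℂ) + i) / ℓ) + w = (z * (τ + j) + 1) / ℓ := by
        field_simp
        linear_combination hw
      have hn : (ℓ : ℂ) * (((τ : ℂ) + i) / ℓ) - ((i : ℂ) - j) = τ + j := by
        field_simp
        ring
      rw [hd', hd2, hn, Nat.cast_mul, div_div_eq_mul_div]
      field_simp
    rw [scaledJ, e, jFun_smul, h, jFun_smul]
  let L₀ : SL(2, ℤ) := ⟨!![1, 0; 1, 1], by simp [Matrix.det_fin_two_of]⟩
  have hmem := mem_Gamma0_of_scaledJ_eq (N := ℓ * ℓ) (g := L₀) fun τ => by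
    rw [key, key, jFun_smul]
  rw [mem_Gamma0_iff_dvd] at hmem
  have h1 : ((ℓ * ℓ : ℕ) : ℤ) ∣ 1 := by simpa [L₀] using hmem
  have h2 := Int.le_of_dvd one_pos h1
  have := hℓ.two_le
  push_cast at h2
  nlinarith

theorem dualConj_injective (hℓN : ℓ ∣ N) : Function.Injective (dualConj (N := N) (ℓ := ℓ)) := by
  intro x y h
  obtain ⟨i, hi, hx⟩ := rep_of_dvd hℓN x
  obtain ⟨j, hj, hy⟩ := rep_of_dvd hℓN y
  have h1 := RingHom.congr_fun h (jGenBar (N * ℓ) 1 (one_dvd _))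
  simp only [dualConj, RingHom.comp_apply, (merModel qbarEmb).ι_jGen,
    act_algebraMap (det_pos_rep _)] at h1
  have h2 := congrArg Subtype.val (IsFractionRing.injective Hol Mer h1)
  refine Subtype.ext ?_
  rw [hi, hj]
  refine congrArg _ (eq_of_dvd_sub (dvd_of_jFun_eq hx hy fun τ => ?_))
  have h3 := congrFun h2 τ
  simp only [preComp_apply] at h3
  rwa [show ((jHol 1 : Hol) : ℍ → ℂ) = jFun from scaledJ_one] at h3

end Fermat.Agent.TwoAdic.MultOne
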