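import Fermat.Agent.TwoAdic.MultOne.DualNorm
import Fermat.Agent.OrdinaryT.Norms
import Fermat.Agent.XHLite.TwistClass.Fricke

/-!
# The transposed operator at a prime dividing the level

`dualHecke` is the correspondence of the two degeneracy maps in the other order. On monodromies it
is the Hecke transfer, without the Fricke twist.
-/

set_option autoImplicit false

noncomputable section

open Matrix.SpecialLinearGroup CongruenceSubgroup UpperHalfPlane
open scoped MatrixGroups
open AlgebraicCurve ModularCurve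
open Fermat.Agent.X0Analytic Fermat.Agent.HeckeJ0 Fermat.Agent.OrdinaryT

namespace Fermat.Agent.TwoAdic.MultOne

local notation "ℚbar" => AlgebraicClosure ℚ

variable {N ℓ : ℕ} [NeZero N] [NeZero ℓ] [Fact ℓ.Prime]

theorem ι_dualFun (φ : ℚbar →+* ℂ) (hℓN : ℓ ∣ N) (u : modularFunctionFieldBar N) :
    (merModel φ).ι N (dualFun N ℓ u) = ∏ x : Idx N ℓ, act (rep x) ((merModel φ).ι N u) := by
  let : Algebra (modularFunctionFieldBar N) (modularFunctionFieldBar (N * ℓ)) :=
    algebraAlong (heckeBetaBar ℚbar N ℓ)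
  have : Module.Finite (modularFunctionFieldBar N) (modularFunctionFieldBar (N * ℓ)) :=
    betaFinite N ℓ
  have : CharZero (modularFunctionFieldBar N) :=
    charZero_of_injective_algebraMap
      (algebraMap ℚbar (modularFunctionFieldBar N)).injective
  let c : Idx N ℓ → modularFunctionFieldBar (N * ℓ) →+* Mer := fun x =>
    (act (rep x)).comp ((merModel φ).ι (N * ℓ))
  have hinj : Function.Injective c := by
    intro x y h
    refine dualConj_injective hℓN (RingHom.ext fun z => ?_)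
    revert z
    rw [← funext_iff]
    refine congrArg DFunLike.coe (ringHom_ext_modularFunctionFieldBar
      (dualConj x) (dualConj y) (fun a => ?_) fun d _ hd => ?_)
    · show act _ ((merModel qbarEmb).ι (N * ℓ) (algebraMap ℚbar _ a)) = act _ _
      rw [(merModel qbarEmb).ι_const, act_const (det_pos_rep _), act_const (det_pos_rep _)]
    · show act _ ((merModel qbarEmb).ι (N * ℓ) (jGenBar (N * ℓ) d hd)) = act _ _
      have h1 := RingHom.congr_fun h (jGenBar (N * ℓ) d hd)
      simp only [c, RingHom.comp_apply, (merModel φ).ι_jGen] at h1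
      rwa [(merModel qbarEmb).ι_jGen]
  have hcard : Fintype.card (Idx N ℓ) =
      Module.finrank (modularFunctionFieldBar N) (modularFunctionFieldBar (N * ℓ)) := by
    rw [card_Idx, if_pos hℓN]
    exact (finrankAlong_beta_of_dvd N ℓ hℓN).symm
  have h := Congruence.map_norm_eq_prod ((merModel φ).ι N) c
    (fun x a => merModel_dual φ hℓN x a) hinj hcard (heckeAlphaBar ℚbar N ℓ u)
  refine h.trans (Finset.prod_congr rfl fun x _ => ?_)
  exact congrArg (act (rep x)) ((merModel φ).ι_heckeAlphaBar N ℓ u)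

/-- The multiplier of the dual norm is the transfer of the multiplier. -/
theorem char_dualFun (φ : ℚbar →+* ℂ) (hℓN : ℓ ∣ N) {n : ℕ} (hn : n ≠ 0) {χ χ' : Gamma0 N →* ℂ}
    {y : modularFunctionFieldBar N}
    (h : J0Torsion.HasChar N n (coeffMap φ (y : LaurentSeries ℚbar)) χ)
    (h' : J0Torsion.HasChar N n (coeffMap φ
      ((dualFun N ℓ y : modularFunctionFieldBar N) : LaurentSeries ℚbar)) χ')
    (γ : Gamma0 N) : χ' γ = ∏ x : Idx N ℓ, χ (gOf x γ) := by
  obtain ⟨r, hr0, hr, hract⟩ := exists_root φ hn h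
  obtain ⟨r', hr'0, hr', hr'act⟩ := exists_root φ hn h'
  set R : Mer := ∏ x : Idx N ℓ, act (rep x) r with hR
  have hRn : r' ^ n = R ^ n := by
    rw [hr', hR, ← Finset.prod_pow]
    refine (ι_dualFun φ hℓN y).trans (Finset.prod_congr rfl fun x _ => ?_)
    rw [← map_pow, hr]
    rfl
  have hR0 : R ≠ 0 := Finset.prod_ne_zero_iff.mpr fun x _ => (map_ne_zero _).mpr hr0
  obtain ⟨c, hc⟩ := exists_mul_of_pow_eq hn hR0 hRn
  have hRγ : act (mapGL ℝ (γ : SL(2, ℤ))) R = constMer (∏ x : Idx N ℓ, χ (gOf x γ)) * R := by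
    rw [hR, map_prod, map_prod, ← Equiv.prod_comp (permOf γ) fun x => act (rep x) r,
      ← Finset.prod_mul_distrib]
    refine Finset.prod_congr rfl fun x _ => ?_
    rw [← act_mul (det_pos_rep x) (det_pos_mapGL _), rep_mul, act_mul (det_pos_mapGL _) (det_pos_rep _),
      hract, map_mul, act_constMer (det_pos_rep _)]
  have h1 := hr'act γ
  rw [hc, map_mul, act_constMer (det_pos_mapGL _), hRγ] at h1
  have hc0 : constMer c ≠ 0 := fun h0 => hr'0 (by rw [hc, h0, zero_mul])
  refine constMer.injective (mul_right_cancel₀ (mul_ne_zero hc0 hR0) ?_)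
  rw [← h1]
  ring

variable (N ℓ)

omit [Fact (Nat.Prime ℓ)] in
theorem alphaFundamental [HasPrincipalDivisors ℚbar (modularFunctionFieldBar (N * ℓ))] :
    FundamentalIdentityAlong ℚbar (heckeAlphaBar ℚbar N ℓ) (alphaIntegral N ℓ) :=
  FunctionFieldRR.fundamentalIdentityAlong (heckeAlphaBar ℚbar N ℓ) (alphaIntegral N ℓ)
    (finiteAlong_of_isFunctionField _)

omit [Fact (Nat.Prime ℓ)] in
theorem betaNormFormula :
    NormFormulaAlong ℚbar (heckeBetaBar ℚbar N ℓ) (betaFinite N ℓ) :=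
  FunctionFieldRR.normFormulaAlong (heckeBetaBar ℚbar N ℓ) (betaFinite N ℓ)

/-- The transposed operator on `J₀(N)`. -/
def dualHecke (x : JZero N) : JZero N :=
  have := hasPrincipalDivisors_bar (N * ℓ)
  Pic0.correspondence (heckeAlphaBar ℚbar N ℓ) (heckeBetaBar ℚbar N ℓ) (alphaIntegral N ℓ)
    (betaIntegral N ℓ) (alphaFundamental N ℓ) (betaFinite N ℓ) (betaNormFormula N ℓ) x

omit [Fact (Nat.Prime ℓ)] in
theorem dualHecke_smul (σ : ℚbar ≃ₐ[ℚ] ℚbar) (x : JZero N) :
    dualHecke N ℓ (σ • x) = σ • dualHecke N ℓ x := by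
  have := hasPrincipalDivisors_bar (N * ℓ)
  rw [dualHecke, dualHecke, galois_smul_pic0_def, galois_smul_pic0_def]
  exact pic0_correspondence_smul (alphaIntegral N ℓ) (betaIntegral N ℓ)
    (fun v => FunctionFieldRR.deg_eq_one v) (fun w => FunctionFieldRR.deg_eq_one w)
    (intertwines_heckeAlphaBar N ℓ σ) (intertwines_heckeBetaBar N ℓ σ)
    (alphaFundamental N ℓ) (betaFinite N ℓ) (betaNormFormula N ℓ) x

omit [Fact (Nat.Prime ℓ)] in
theorem nsmul_dualHecke {n : ℕ} {x : JZero N} (hx : n • x = 0) : n • dualHecke N ℓ x = 0 := by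
  have := hasPrincipalDivisors_bar (N * ℓ)
  rw [dualHecke, ← map_nsmul, hx, map_zero]

omit [Fact (Nat.Prime ℓ)] in
/-- The function of the image. -/
theorem isFunctionOf_dualFun {n : ℕ} {x : JZero N} {u : modularFunctionFieldBar N}
    (hu : IsFunctionOf n x u) : IsFunctionOf n (dualHecke N ℓ x) (dualFun N ℓ u) := by
  have := hasPrincipalDivisors_bar (N * ℓ)
  have := hasPrincipalDivisors_bar N
  obtain ⟨hu0, D, rfl, hD⟩ := hu
  refine ⟨normAlong_ne_zero (betaFinite N ℓ) ((map_ne_zero _).mpr hu0),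
    Pic0.degZeroCorrespondence (heckeAlphaBar ℚbar N ℓ) (heckeBetaBar ℚbar N ℓ)
      (alphaIntegral N ℓ) (betaIntegral N ℓ) (alphaFundamental N ℓ) D, ?_, fun P => ?_⟩
  · exact (Pic0.correspondence_mk _ _ _ _ _ _ _ _).symm
  · have h := correspondence_apply_eq_ord (heckeAlphaBar ℚbar N ℓ) (heckeBetaBar ℚbar N ℓ)
      (alphaIntegral N ℓ) (betaIntegral N ℓ) (betaFinite N ℓ) (betaNormFormula N ℓ) hu0
      (D := (n : ℤ) • (D : Divisor ℚbar (modularFunctionFieldBar N)))
      (fun v => by rw [Finsupp.smul_apply, smul_eq_mul, hD]) P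
    rw [map_zsmul, Finsupp.smul_apply, smul_eq_mul] at h
    exact h.symm

variable {N ℓ}

/-- **The dual operator is the transfer of the monodromy.** -/
theorem monodromy_dualHecke (φ : ℚbar →+* ℂ) (hℓN : ℓ ∣ N) {n : ℕ} [NeZero n] {x : JZero N}
    (hx : x ∈ Pic0.torsion ℚbar (modularFunctionFieldBar N) n)
    {ψ ψ' : Additive (Gamma0 N) →+ ZMod n}
    (h : IsMonodromy φ n x ψ) (h' : IsMonodromy φ n (dualHecke N ℓ x) ψ') :
    ψ' = cohHecke ℓ ψ := by
  obtain ⟨D, f, hD, hf, hDf⟩ := exists_divisor_function hx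
  obtain ⟨hf', D', hD', hD'f⟩ :=
    isFunctionOf_dualFun N ℓ (n := n) ⟨hf, D, hD, fun P => (hDf P).symm⟩
  have hc := h D f hD hf hDf
  have hc' := h' D' (dualFun N ℓ f) hD' hf' fun v => (hD'f v).symm
  refine AddMonoidHom.ext fun g => ?_
  obtain ⟨γ, rfl⟩ := Additive.ofMul.surjective g
  refine ZMod.injective_stdAddChar ?_
  rw [cohHecke_apply, stdAddChar_sum]
  exact char_dualFun φ hℓN (NeZero.ne n) hc hc' γ

/-- The Hecke operator prime to the level is the transfer of the monodromy. -/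
theorem monodromy_hecke_of_not_dvd (φ : ℚbar →+* ℂ) (hℓN : ¬ ℓ ∣ N) {n : ℕ} [NeZero n]
    {x : JZero N} (hx : x ∈ Pic0.torsion ℚbar (modularFunctionFieldBar N) n)
    {ψ ψ' : Additive (Gamma0 N) →+ ZMod n}
    (h : IsMonodromy φ n x ψ) (h' : IsMonodromy φ n (heckeOperatorAlong ℚbar N ℓ x) ψ') :
    ψ' = cohHecke ℓ ψ := by
  have e := monodromy_heckeAlong φ ℓ hx rfl h h'
  rw [XHLite.cohHecke_frickeTwist hℓN] at e
  exact (XHLite.frickeTwist_frickeTwist ψ').symm.trans
    ((congrArg frickeTwist e).trans (XHLite.frickeTwist_frickeTwist _))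

end Fermat.Agent.TwoAdic.MultOne
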