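import Fermat.Agent.TwoAdic.MultOne.Abstract
import Fermat.Agent.TwoAdic.MultOne.Dlog
import Fermat.Agent.TwoAdic.MultOne.Coords
import Fermat.Agent.EigenRep.EigenSpace

/-!
# Coefficients of the logarithmic derivative on an eigenvector

The coefficient functionals, extended to vectors over a field `k` of characteristic two, are all
determined on an eigenvector with `a₂ = 1` by one of them at `n = 1`.
-/

set_option autoImplicit false

noncomputable section

open IsLocalRing ModularCurve AlgebraicCurve Matrix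
open Fermat.Agent.Reduction Fermat.Agent.SemistableRed Fermat.Agent.OrdinaryT
open Fermat.Agent.HeckeJ0 Fermat.Agent.EigenRep

namespace Fermat.Agent.TwoAdic.MultOne

local notation "Ω" => AlgebraicClosure ℚ

theorem zmodTwo_cases : ∀ c : ZMod 2, c = 0 ∨ c = 1 := by decide

section Pair

variable {M : ℕ} [NeZero M] (k : Type) [Field k] [CharP k 2]

/-- The cast. -/
def castTwo : ZMod 2 →+* k := ZMod.castHom (dvd_refl 2) k

variable {k}

/-- An additive functional on two-torsion at a vector over `k`. -/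
def pairing (F : Tors2 M →+ ZMod 2) (v : Fin (rk M) → k) : k :=
  dotProduct (castTwo k ∘ rowOf F) v

theorem pairing_add (F F' : Tors2 M →+ ZMod 2) (v : Fin (rk M) → k) :
    pairing (F + F') v = pairing F v + pairing F' v := by
  rw [pairing, pairing, pairing, ← add_dotProduct]
  refine congrArg (fun w => dotProduct w v) (funext fun i => ?_)
  exact map_add (castTwo k) _ _

theorem pairing_zero (v : Fin (rk M) → k) : pairing (0 : Tors2 M →+ ZMod 2) v = 0 := by
  rw [pairing, show castTwo k ∘ rowOf (0 : Tors2 M →+ ZMod 2) = 0 from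
    funext fun i => map_zero (castTwo k), zero_dotProduct]

theorem map_intCast_two (ℓ : ℕ) [Fact ℓ.Prime] [NeZero ℓ] :
    ((heckeMat M ℓ).map (Int.cast : ℤ → ZMod 2)).map (castTwo k) =
      (heckeMat M ℓ).map (Int.cast : ℤ → k) := by
  ext i j
  simp [castTwo]

/-- Composing with an operator given by a Hecke matrix. -/
theorem pairing_comp (F F' : Tors2 M →+ ZMod 2) (op : Tors2 M → Tors2 M) (ℓ : ℕ) [Fact ℓ.Prime]
    [NeZero ℓ] (hop : ∀ x, coord M (op x) =
      ((heckeMat M ℓ).map (Int.cast : ℤ → ZMod 2)).mulVec (coord M x))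
    (hF : ∀ x, F' x = F (op x)) (v : Fin (rk M) → k) :
    pairing F' v = pairing F (((heckeMat M ℓ).map (Int.cast : ℤ → k)) *ᵥ v) := by
  have hrow : rowOf F' = rowOf F ᵥ* ((heckeMat M ℓ).map (Int.cast : ℤ → ZMod 2)) := funext fun i => by
    rw [rowOf, hF, ← rowOf_dot F, hop, AddEquiv.apply_symm_apply, dotProduct_mulVec,
      dotProduct_single, mul_one]
  rw [pairing, pairing, hrow, dotProduct_mulVec, ← map_intCast_two (k := k) ℓ]
  refine congrArg (fun w => dotProduct w v) (funext fun i => ?_)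
  exact RingHom.map_vecMul (castTwo k) ((heckeMat M ℓ).map (Int.cast : ℤ → ZMod 2)) (rowOf F) i

end Pair

variable {A : ValuationSubring Ω} {M : ℕ} [NeZero M] [Fact (2 : ℕ).Prime]
  [CharP (ResidueField A) 2] [IsAlgClosed (ResidueField A)] (S : Setting A M 2)

/-- The logarithmic derivative as a homomorphism. -/
def dlogHom : Tors2 M →+ LaurentSeries (ResidueField A) :=
  AddMonoidHom.mk' (fun x => (exists_isDlog S x.two_nsmul).choose) fun x y =>
    (exists_isDlog S (x + y).two_nsmul).choose_spec.unique S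
      ((exists_isDlog S x.two_nsmul).choose_spec.add (exists_isDlog S y.two_nsmul).choose_spec)

theorem isDlog_dlogHom (x : Tors2 M) : IsDlog A (x : JZero M) (dlogHom S x) :=
  (exists_isDlog S x.two_nsmul).choose_spec

theorem dlogHom_eq {x : Tors2 M} {φ : LaurentSeries (ResidueField A)}
    (h : IsDlog A (x : JZero M) φ) : dlogHom S x = φ :=
  (isDlog_dlogHom S x).unique S h

/-- The functional `g` of the `n`th coefficient. -/
def coeffFun (n : ℤ) (g : ResidueField A →+ ZMod 2) : Tors2 M →+ ZMod 2 :=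
  AddMonoidHom.mk' (fun x => g ((dlogHom S x).coeff n)) fun x y => by
    rw [map_add, HahnSeries.coeff_add, map_add]

theorem coeffFun_apply (n : ℤ) (g : ResidueField A →+ ZMod 2) (x : Tors2 M) :
    coeffFun S n g x = g ((dlogHom S x).coeff n) := rfl

theorem coeffFun_neg {n : ℤ} (hn : n < 0) (g : ResidueField A →+ ZMod 2) : coeffFun S n g = 0 := by
  refine AddMonoidHom.ext fun x => ?_
  obtain ⟨u, v, -, -, -, hφ⟩ := isDlog_dlogHom S x
  rw [coeffFun_apply, hφ, dlogS_coeff_neg v hn, map_zero, AddMonoidHom.zero_apply]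

/-- Squaring on the residue field. -/
def sqHom : ResidueField A →+ ResidueField A := (frobenius (ResidueField A) 2).toAddMonoidHom

theorem coeffFun_two_mul (n : ℤ) (g : ResidueField A →+ ZMod 2) :
    coeffFun S (2 * n) g = coeffFun S n (g.comp sqHom) := by
  refine AddMonoidHom.ext fun x => ?_
  obtain ⟨u, v, -, -, hv0, hφ⟩ := isDlog_dlogHom S x
  rw [coeffFun_apply, coeffFun_apply, hφ, dlogS_coeff_two_mul hv0 n]
  rfl

theorem coeffFun_sq (hM : ¬ 2 ∣ M) (n : ℤ) (g : ResidueField A →+ ZMod 2) (x : Tors2 M) :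
    coeffFun S n (g.comp sqHom) x = coeffFun S n g (heckeTors2 2 x) := by
  have h : dlogHom S (heckeTors2 2 x) = coeffMap (frobenius (ResidueField A) 2) (dlogHom S x) :=
    dlogHom_eq S ((isDlog_dlogHom S x).hecke_two hM)
  rw [coeffFun_apply, coeffFun_apply, h, coeffMap_coeff]
  rfl

theorem coeffFun_dual (ℓ : ℕ) [Fact ℓ.Prime] [NeZero ℓ] (hℓM : ℓ ∣ M) (hℓ2 : ℓ ≠ 2) (n : ℤ)
    (g : ResidueField A →+ ZMod 2) (x : Tors2 M) :
    coeffFun S ((ℓ : ℤ) * n) g x = coeffFun S n g (dualTors2 ℓ x) := by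
  obtain ⟨ψ, hψ, h⟩ := (isDlog_dlogHom S x).dual hℓM hℓ2
  rw [coeffFun_apply, coeffFun_apply, dlogHom_eq S (x := dualTors2 ℓ x) hψ, h]

theorem coeffFun_hecke (ℓ : ℕ) [Fact ℓ.Prime] [NeZero ℓ] (hℓM : ¬ ℓ ∣ M) (hℓ2 : ℓ ≠ 2) (n : ℤ)
    (g : ResidueField A →+ ZMod 2) (x : Tors2 M) :
    coeffFun S n g (heckeTors2 ℓ x) =
      g ((qExpand (ResidueField A) ℓ (dlogHom S x)).coeff n) +
        coeffFun S ((ℓ : ℤ) * n) g x := by
  obtain ⟨ψ, hψ, h⟩ := (isDlog_dlogHom S x).hecke hℓM hℓ2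
  rw [coeffFun_apply, coeffFun_apply, dlogHom_eq S (x := heckeTors2 ℓ x) hψ, h, map_add]

variable {k : Type} [Field k] [CharP k 2] {a : Nat.Primes → k}
  {v : Fin (rk M) → k}

omit [CharP k 2] in
theorem mulVec_of_mem (hv : v ∈ eigenSub (torsionHeckeModel M 2) (∅ : Set ℕ) a) (ℓ : ℕ)
    [Fact ℓ.Prime] [NeZero ℓ] :
    ((heckeMat M ℓ).map (Int.cast : ℤ → k)) *ᵥ v = a ⟨ℓ, Fact.out⟩ • v :=
  (mem_eigenSub (torsionHeckeModel M 2)).mp hv ⟨ℓ, Fact.out⟩ (Set.notMem_empty _)

theorem pairing_smul (F : Tors2 M →+ ZMod 2) (c : k) :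
    pairing F (c • v) = c * pairing F v := by
  rw [pairing, pairing, dotProduct_smul, smul_eq_mul]

/-- **All coefficients vanish once the first one does.** -/
theorem pairing_coeffFun_eq_zero (hM : ¬ 2 ∣ M)
    (hv : v ∈ eigenSub (torsionHeckeModel M 2) (∅ : Set ℕ) a)
    (h2 : a ⟨2, Nat.prime_two⟩ = 1) {g₀ : ResidueField A →+ ZMod 2}
    (hg₀ : ∀ g : ResidueField A →+ ZMod 2, ∃ f : ResidueField A →+ ZMod 2,
      ∀ x, g x = g 1 * g₀ x + (f (x ^ 2) + f x))
    (h1 : pairing (coeffFun S 1 g₀) v = 0) :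
    ∀ (n : ℤ), n ≠ 0 → ∀ g : ResidueField A →+ ZMod 2, pairing (coeffFun S n g) v = 0 := by
  have : NeZero (2 : ℕ) := ⟨two_ne_zero⟩
  have hsq : ∀ n g, pairing (coeffFun S n (g.comp sqHom)) v = pairing (coeffFun S n g) v := by
    intro n g
    rw [pairing_comp (coeffFun S n g) _ (heckeTors2 2) 2 (coord_heckeTors2 2 hM)
      (fun x => coeffFun_sq S hM n g x) v, mulVec_of_mem hv 2, pairing_smul, h2, one_mul]
  have hone : ∀ g, pairing (coeffFun S 1 g) v = 0 := by
    intro g
    obtain ⟨f, hf⟩ := hg₀ g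
    have e : coeffFun S 1 g = (if g 1 = 1 then coeffFun S 1 g₀ else 0) +
        (coeffFun S 1 (f.comp sqHom) + coeffFun S 1 f) := by
      refine AddMonoidHom.ext fun x => ?_
      rcases zmodTwo_cases (g 1) with h0 | h0 <;>
        simp [h0, coeffFun_apply, hf, sqHom, frobenius_def]
    rw [e, pairing_add, pairing_add, hsq, CharTwo.add_self_eq_zero, add_zero]
    split_ifs
    · exact h1
    · exact pairing_zero v
  have hpos : ∀ m : ℕ, m ≠ 0 → ∀ g, pairing (coeffFun S (m : ℤ) g) v = 0 := by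
    intro m
    induction m using Nat.strong_induction_on with
    | _ m ih =>
      intro hm g
      rcases eq_or_ne m 1 with rfl | hm1
      · exact_mod_cast hone g
      have hp := Nat.minFac_prime hm1
      obtain ⟨q, hq⟩ := Nat.minFac_dvd m
      obtain ⟨ℓ, hℓdef⟩ : ∃ ℓ, ℓ = m.minFac := ⟨_, rfl⟩
      rw [← hℓdef] at hp hq
      have hq0 : q ≠ 0 := fun h0 => hm (by rw [hq, h0, mul_zero])
      have hqm : q < m := by
        have := hp.two_le
        rw [hq]; nlinarith [Nat.pos_of_ne_zero hq0]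
      have : Fact ℓ.Prime := ⟨hp⟩
      have : NeZero ℓ := ⟨hp.ne_zero⟩
      rw [hq, Nat.cast_mul]
      rcases eq_or_ne ℓ 2 with h | hℓ2
      · rw [h, Nat.cast_ofNat, coeffFun_two_mul, hsq]
        exact ih q hqm hq0 g
      have key := fun (op : Tors2 M → Tors2 M)
          (hop : ∀ x, coord M (op x) =
            ((heckeMat M ℓ).map (Int.cast : ℤ → ZMod 2)).mulVec (coord M x))
          (F : Tors2 M →+ ZMod 2) (hF : ∀ x, F x = coeffFun S (q : ℤ) g (op x)) =>
        show pairing F v = 0 by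
          rw [pairing_comp (coeffFun S (q : ℤ) g) F op ℓ hop hF v, mulVec_of_mem hv ℓ, pairing_smul,
            ih q hqm hq0 g, mul_zero]
      by_cases hℓM : ℓ ∣ M
      · exact key _ (coord_dualTors2 ℓ hℓM) _ fun x => coeffFun_dual S ℓ hℓM hℓ2 q g x
      by_cases hℓq : ℓ ∣ q
      · obtain ⟨q', rfl⟩ := hℓq
        have hq'0 : q' ≠ 0 := fun h0 => hq0 (by rw [h0, mul_zero])
        have hq'm : q' < m := lt_of_le_of_lt (Nat.le_mul_of_pos_left q' hp.pos) hqm
        have hsum := key _ (coord_heckeTors2 ℓ hℓM)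
          (coeffFun S (q' : ℤ) g + coeffFun S ((ℓ : ℤ) * ((ℓ * q' : ℕ) : ℤ)) g) fun x => by
            rw [coeffFun_hecke S ℓ hℓM hℓ2, Nat.cast_mul, qExpand_coeff_mul]
            rfl
        rwa [pairing_add, ih q' hq'm hq'0 g, zero_add] at hsum
      · refine key _ (coord_heckeTors2 ℓ hℓM) _ fun x => ?_
        rw [coeffFun_hecke S ℓ hℓM hℓ2, qExpand_coeff_of_not_dvd ℓ _
          (fun h => hℓq (Int.natCast_dvd_natCast.mp h)), map_zero, zero_add]
  intro n hn g
  rcases lt_or_gt_of_ne hn with h | h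
  · rw [coeffFun_neg S h g, pairing_zero]
  · obtain ⟨m, rfl⟩ : ∃ m : ℕ, n = m := ⟨n.toNat, (Int.toNat_of_nonneg h.le).symm⟩
    exact hpos m (by exact_mod_cast hn) g

end Fermat.Agent.TwoAdic.MultOne
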