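import Fermat.Agent.TwoAdic.MultOne.Functional
import Fermat.Agent.TwoAdic.Selmer.Residual
import Fermat.Agent.SemistableRed.AllFacts
import Fermat.Agent.EigenRep.Smooth
import Fermat.Agent.EigenRep.Inputs

/-!
# The quadratic relation of every Galois element on an eigenspace modulo two

On the vectors over `k` which are simultaneous eigenvectors with the traces of `r` as eigenvalues at
almost all primes, every Galois element `g` satisfies `g² + tr (r g) g + 1 = 0`.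
-/

set_option autoImplicit false

noncomputable section

open AlgebraicCurve ModularCurve Matrix
open Fermat.Agent.HeckeJ0 Fermat.Agent.EigenRep Fermat.Agent.DefRing

namespace Fermat.Agent.TwoAdic.MultOne

local notation "Ω" => AlgebraicClosure ℚ
local notation "G_ℚ" => (AlgebraicClosure ℚ) ≃ₐ[ℚ] (AlgebraicClosure ℚ)

variable {M : ℕ} [NeZero M] {k : Type} [Field k] [CharP k 2]

/-- Galois on vectors over `k`. -/
def galK (g : G_ℚ) : Matrix (Fin (rk M)) (Fin (rk M)) k := (galMatTwo g).map (castTwo k)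

theorem galK_one : galK (M := M) (k := k) 1 = 1 := by
  rw [galK, galMatTwo_one, Matrix.map_one _ (map_zero _) (map_one _)]

theorem galK_mul (g h : G_ℚ) : galK (M := M) (k := k) (g * h) = galK g * galK h := by
  rw [galK, galMatTwo_mul, Matrix.map_mul]; rfl

theorem galMatTwo_commute (g : G_ℚ) (ℓ : ℕ) [Fact ℓ.Prime] [NeZero ℓ] :
    galMatTwo g * (heckeMat M ℓ).map (Int.cast : ℤ → ZMod 2) =
      (heckeMat M ℓ).map (Int.cast : ℤ → ZMod 2) * galMatTwo g := by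
  refine matrix_ext fun x => ?_
  rw [← mulVec_mulVec, ← mulVec_mulVec, galMatTwo_mulVec]
  by_cases h : ℓ ∣ M
  · rw [← coord_dualTors2 ℓ h, ← coord_dualTors2 ℓ h, galMatTwo_mulVec]
    exact congrArg (coord M) (Subtype.ext (dualHecke_smul M ℓ g (x : JZero M)).symm)
  · rw [← coord_heckeTors2 ℓ h, ← coord_heckeTors2 ℓ h, galMatTwo_mulVec]
    exact congrArg (coord M) (Subtype.ext (heckeOperatorAlong_smul M ℓ g (x : JZero M)).symm)

/-- The eigenvectors are stable under Galois. -/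
theorem galK_mem (g : G_ℚ) {a : Nat.Primes → k} {v : Fin (rk M) → k}
    (hv : v ∈ eigenSub (torsionHeckeModel M 2) (∅ : Set ℕ) a) :
    galK g *ᵥ v ∈ eigenSub (torsionHeckeModel M 2) (∅ : Set ℕ) a := by
  refine (mem_eigenSub (torsionHeckeModel M 2)).mpr fun ℓ _ => ?_
  have : Fact (ℓ : ℕ).Prime := ⟨ℓ.2⟩
  have : NeZero (ℓ : ℕ) := ⟨ℓ.2.ne_zero⟩
  have h := congrArg (fun X => X.map (castTwo k)) (galMatTwo_commute (M := M) g (ℓ : ℕ))
  simp only [Matrix.map_mul, map_intCast_two] at h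
  show ((heckeMat M (ℓ : ℕ)).map (Int.cast : ℤ → k)) *ᵥ (galK g *ᵥ v) = _
  rw [mulVec_mulVec, galK, ← h, ← mulVec_mulVec, mulVec_of_mem hv (ℓ : ℕ), mulVec_smul]
  rfl

/-- A number field fixing all two-torsion. -/
theorem exists_level_galMatTwo (M : ℕ) [NeZero M] :
    ∃ L : IntermediateField ℚ Ω, FiniteDimensional ℚ L ∧
      ∀ σ : G_ℚ, (∀ a ∈ L, σ a = a) → galMatTwo (M := M) σ = 1 := by
  let pts : Fin (rk M) → Tors2 M := fun i => (coord M).symm (Pi.single i 1)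
  choose L hL hfix using fun i => EigenRep.jZeroSmooth M (pts i : JZero M)
  refine ⟨⨆ i, L i, ?_, fun σ hσ => ?_⟩
  · have := fun i => hL i
    exact IntermediateField.finiteDimensional_iSup_of_finite
  · refine Matrix.ext_of_mulVec_single fun i => ?_
    have hi : (Pi.single i 1 : Fin (rk M) → ZMod 2) = coord M (pts i) :=
      ((coord M).apply_symm_apply _).symm
    rw [one_mulVec, hi, galMatTwo_mulVec]
    exact congrArg (coord M) (Subtype.ext (hfix i σ fun a ha => hσ a (le_iSup L i ha)))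

/-- Every element is congruent to a Frobenius at a prime outside a finite set. -/
theorem exists_frobenius_eq (r : MRep k) (hc : IsCont r) (g : G_ℚ) (S : Finset ℕ) :
    ∃ ℓ : ℕ, ℓ.Prime ∧ ℓ ∉ S ∧ ¬ ℓ ∣ 2 * M ∧ ∃ P : ValuationSubring Ω, P.LiesOverPrime ℓ ∧
      ∃ σ : G_ℚ, P.IsFrobeniusAt σ ℓ ∧ galMatTwo (M := M) g = galMatTwo σ ∧ r g = r σ := by
  obtain ⟨L₁, hL₁, H₁⟩ := exists_level_galMatTwo M
  obtain ⟨L₂, hL₂, H₂⟩ := Selmer.exists_level hc
  obtain ⟨ℓ, hℓ, hS, P, hP, σ, hσ, hg⟩ := frobeniusDense (L₁ ⊔ L₂)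
    (IntermediateField.finiteDimensional_sup L₁ L₂) g (S ∪ (2 * M).primeFactors)
  rw [Finset.mem_union, not_or] at hS
  refine ⟨ℓ, hℓ, hS.1, fun h => hS.2 (Nat.mem_primeFactors.mpr ⟨hℓ, h,
    mul_ne_zero two_ne_zero (NeZero.ne M)⟩), P, hP, σ, hσ, ?_⟩
  have hfix := inv_mul_fixes hg
  have h1 := H₁ _ fun a ha => hfix a (le_sup_left (a := L₁) (b := L₂) ha)
  have h2 := H₂ _ ((IntermediateField.mem_fixingSubgroup_iff L₂ _).mpr fun a ha =>
    hfix a (le_sup_right (a := L₁) (b := L₂) ha))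
  have hgσ : g = σ * (σ⁻¹ * g) := (mul_inv_cancel_left σ g).symm
  constructor
  · rw [hgσ, galMatTwo_mul, h1, mul_one]
  · rw [hgσ, map_mul, h2, mul_one]

/-- The relation of a Frobenius. -/
theorem galMatTwo_frobenius {ℓ : ℕ} [Fact ℓ.Prime] [NeZero ℓ] (hℓM : ¬ ℓ ∣ 2 * M)
    {P : ValuationSubring Ω} (hP : P.LiesOverPrime ℓ) {σ : G_ℚ} (hσ : P.IsFrobeniusAt σ ℓ) :
    galMatTwo σ * galMatTwo σ + (heckeMat M ℓ).map (Int.cast : ℤ → ZMod 2) * galMatTwo σ + 1 =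
      0 := by
  have : Fact (Nat.Prime 2) := ⟨Nat.prime_two⟩
  have hℓ2 : ℓ ≠ 2 := fun h => hℓM (h ▸ dvd_mul_right 2 M)
  have hℓ' : ¬ ℓ ∣ M := fun h => hℓM (h.mul_left 2)
  refine matrix_ext fun x => ?_
  rw [add_mulVec, add_mulVec, ← mulVec_mulVec, ← mulVec_mulVec, galMatTwo_mulVec, galMatTwo_mulVec,
    ← coord_heckeTors2 ℓ hℓ', one_mulVec, zero_mulVec, ← map_add, ← map_add,
    ← map_zero (coord M)]
  refine congrArg (coord M) (Subtype.ext ?_)
  have es := (SemistableRed.allRelations M 2).frobenius ℓ Fact.out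
    (by rw [mul_comm]; exact hℓM) P hP σ hσ (x : JZero M) ⟨1, by rw [pow_one]; exact x.two_nsmul⟩
  have hneg : ∀ y : JZero M, 2 • y = 0 → -y = y := fun y hy => by
    rw [← sub_eq_zero, sub_eq_add_neg, ← neg_add, ← two_nsmul, hy, neg_zero]
  have hx : ℓ • (x : JZero M) = (x : JZero M) := by
    obtain ⟨m, hm⟩ := (Fact.out : ℓ.Prime).odd_of_ne_two hℓ2
    rw [hm, add_nsmul, mul_comm 2 m, mul_nsmul', x.two_nsmul, nsmul_zero, zero_add, one_nsmul]
  rw [hx, sub_eq_add_neg] at es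
  refine Eq.trans ?_ es
  exact congrArg (fun y => σ • σ • (x : JZero M) + y + (x : JZero M))
    (hneg _ (heckeTors2 ℓ (galTors2 σ x)).two_nsmul).symm

/-- **The quadratic relation.** -/
theorem galK_relation (r : MRep k) (hc : IsCont r) (S : Finset ℕ) (a : Nat.Primes → k)
    (ha : ∀ (ℓ : ℕ) (hℓ : ℓ.Prime), ℓ ∉ S → ¬ ℓ ∣ 2 * M → ∀ P : ValuationSubring Ω,
      P.LiesOverPrime ℓ → ∀ σ : G_ℚ, P.IsFrobeniusAt σ ℓ → a ⟨ℓ, hℓ⟩ = (r σ).trace)
    (g : G_ℚ) {v : Fin (rk M) → k} (hv : v ∈ eigenSub (torsionHeckeModel M 2) (∅ : Set ℕ) a) :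
    galK g *ᵥ (galK g *ᵥ v) + (r g).trace • (galK g *ᵥ v) + v = 0 := by
  obtain ⟨ℓ, hℓ, hS, hℓM, P, hP, σ, hσ, h1, h2⟩ := exists_frobenius_eq (M := M) r hc g S
  have : Fact ℓ.Prime := ⟨hℓ⟩
  have : NeZero ℓ := ⟨hℓ.ne_zero⟩
  have h := congrArg (fun X => X.map (castTwo k) *ᵥ v) (galMatTwo_frobenius hℓM hP hσ)
  simp only [Matrix.map_add _ (map_add (castTwo k)), Matrix.map_mul, map_intCast_two,
    Matrix.map_one _ (map_zero (castTwo k)) (map_one (castTwo k)),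
    Matrix.map_zero _ (map_zero (castTwo k)), add_mulVec, ← mulVec_mulVec, one_mulVec,
    zero_mulVec] at h
  have hT := mulVec_of_mem (galK_mem σ hv) ℓ
  rw [galK] at hT
  rw [hT, ha ℓ hℓ hS hℓM P hP σ hσ] at h
  rw [h2, galK, h1]
  exact h

end Fermat.Agent.TwoAdic.MultOne
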